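import Fermat.Agent.Red.ModelO.ValCrit

/-!
# P-RED / R-MODEL: the middle chart

* `h85_exists_pow_mul_isIntegral` : the scaling lemma (generic);
* `h85_exists_pow_mul_mem_modelAt` : `y` integral over `A[t⁻¹]` ⟹ `t ^ n * y` integral over
  `A[t]` for some `n`;
* `h85modelMid M A` : the middle chart `{x | ∃ k, j ^ k * x ∈ modelFin M A}` with
  `modelFin ≤ modelMid`, `modelInf ≤ modelMid`, the two scaling properties, root-closedness.
-/

set_option autoImplicit false

open Polynomial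

noncomputable section

namespace Fermat.Agent.Red.ModelO

open Fermat.Agent.S37

/-! ### The scaling lemma -/

/-- **Scaling lemma.**  If every element of the subring `T₁` can be multiplied into the subring
`T₂` by a power of `s ∈ T₂`, then every element integral over `T₁` can be multiplied by a power
of `s` into the integral closure of `T₂`. -/
theorem h85_exists_pow_mul_isIntegral {F : Type*} [Field F] (T₁ T₂ : Subring F) (s : F)
    (hs : s ∈ T₂) (h : ∀ x ∈ T₁, ∃ n : ℕ, s ^ n * x ∈ T₂) {x : F} (hx : IsIntegral T₁ x) :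
    ∃ n : ℕ, IsIntegral T₂ (s ^ n * x) := by
  classical
  obtain ⟨p, hmonic, hroot⟩ := hx
  have hcoeff : ∀ i, ∃ n : ℕ, s ^ n * (p.coeff i : F) ∈ T₂ := fun i => h _ (p.coeff i).2
  choose n hn using hcoeff
  set N : ℕ := ∑ i ∈ Finset.range (p.natDegree + 1), n i with hN
  have hnN : ∀ i ≤ p.natDegree, n i ≤ N := fun i hi =>
    Finset.single_le_sum (f := n) (fun _ _ => Nat.zero_le _)
      (Finset.mem_range.mpr (Nat.lt_succ_of_le hi))
  set q : F[X] := (p.map (algebraMap T₁ F)).scaleRoots (s ^ N) with hq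
  have hqmonic : q.Monic := (Polynomial.monic_scaleRoots_iff _).mpr (hmonic.map _)
  have hqroot : q.eval (s ^ N * x) = 0 := by
    rw [hq, Polynomial.scaleRoots_eval_mul, Polynomial.eval_map, hroot, mul_zero]
  have hqcoeff : ∀ i, q.coeff i ∈ T₂ := by
    intro i
    rw [hq, Polynomial.coeff_scaleRoots, Polynomial.coeff_map, hmonic.natDegree_map]
    by_cases hi : i < p.natDegree
    · have h1 : n i ≤ N * (p.natDegree - i) := by
        calc n i ≤ N := hnN i hi.le
          _ = N * 1 := (mul_one _).symm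
          _ ≤ N * (p.natDegree - i) := Nat.mul_le_mul_left _ (by omega)
      have h2 : (algebraMap T₁ F) (p.coeff i) * (s ^ N) ^ (p.natDegree - i) =
          s ^ (N * (p.natDegree - i) - n i) * (s ^ n i * (p.coeff i : F)) := by
        rw [← pow_mul, ← mul_assoc, ← pow_add, Nat.sub_add_cancel h1, mul_comm]
        rfl
      rw [h2]
      exact mul_mem (pow_mem hs _) (hn i)
    · rcases Nat.eq_or_lt_of_le (not_lt.mp hi) with hi' | hi'
      · rw [← hi', hmonic.coeff_natDegree, Nat.sub_self, pow_zero, mul_one, map_one]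
        exact one_mem _
      · rw [Polynomial.coeff_eq_zero_of_natDegree_lt hi', map_zero, zero_mul]
        exact zero_mem _
  refine ⟨N, ?_⟩
  have hl : q ∈ lifts (algebraMap T₂ F) :=
    (lifts_iff_coeff_lifts q).2 fun i => ⟨⟨q.coeff i, hqcoeff i⟩, rfl⟩
  obtain ⟨r, hr, -, hrm⟩ := lifts_and_degree_eq_and_monic hl hqmonic
  refine ⟨r, hrm, ?_⟩
  rw [← eval_map, hr]
  exact hqroot

/-! ### Scaling between the charts -/

variable (M : ℕ) (A : ValuationSubring Kbar)

theorem h85_exists_pow_mul_mem_ringAdj {t : FF M} (ht : t ≠ 0) {x : FF M}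
    (hx : x ∈ ringAdj M A t⁻¹) : ∃ n : ℕ, t ^ n * x ∈ ringAdj M A t := by
  have htA : t ∈ ringAdj M A t := Subring.subset_closure (Or.inr rfl)
  unfold ringAdj at hx
  induction hx using Subring.closure_induction with
  | mem y hy =>
    rcases hy with ⟨a, ha, rfl⟩ | hy
    · exact ⟨0, by rw [pow_zero, one_mul]; exact Subring.subset_closure (Or.inl ⟨a, ha, rfl⟩)⟩
    · rw [Set.mem_singleton_iff] at hy
      subst hy
      exact ⟨1, by rw [pow_one, mul_inv_cancel₀ ht]; exact one_mem _⟩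
  | zero => exact ⟨0, by rw [mul_zero]; exact zero_mem _⟩
  | one => exact ⟨0, by rw [pow_zero, one_mul]; exact one_mem _⟩
  | add y z _ _ hy hz =>
    obtain ⟨m, hm⟩ := hy
    obtain ⟨n, hn⟩ := hz
    refine ⟨m + n, ?_⟩
    have : t ^ (m + n) * (y + z) = t ^ n * (t ^ m * y) + t ^ m * (t ^ n * z) := by ring
    rw [this]
    exact add_mem (mul_mem (pow_mem htA n) hm) (mul_mem (pow_mem htA m) hn)
  | neg y _ hy =>
    obtain ⟨m, hm⟩ := hy
    exact ⟨m, by rw [mul_neg]; exact neg_mem hm⟩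
  | mul y z _ _ hy hz =>
    obtain ⟨m, hm⟩ := hy
    obtain ⟨n, hn⟩ := hz
    refine ⟨m + n, ?_⟩
    have : t ^ (m + n) * (y * z) = (t ^ m * y) * (t ^ n * z) := by ring
    rw [this]
    exact mul_mem hm hn

set_option synthInstance.maxHeartbeats 400000 in
/-- `y` integral over `A[t⁻¹]` ⟹ `t ^ n * y` integral over `A[t]` for some `n`. -/
theorem h85_exists_pow_mul_mem_modelAt {t : FF M} (ht : t ≠ 0) {y : FF M}
    (hy : y ∈ modelAt M A t⁻¹) : ∃ n : ℕ, t ^ n * y ∈ modelAt M A t := by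
  have h1 : IsIntegral (ringAdj M A t⁻¹) y := hy
  obtain ⟨n, hn⟩ := h85_exists_pow_mul_isIntegral (ringAdj M A t⁻¹) (ringAdj M A t) t
    (Subring.subset_closure (Or.inr rfl))
    (fun x hx => h85_exists_pow_mul_mem_ringAdj M A ht hx) h1
  exact ⟨n, hn⟩

/-! ### The middle chart -/

variable [NeZero M]

theorem h85_jB_ne_zero : jB M ≠ 0 := by
  intro h
  have h1 : ((jB M : FF M) : LaurentSeries Kbar) = 0 := by rw [h]; rfl
  have h2 : ModularCurve.coeffEmb Kbar ModularCurve.jq = 0 := h1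
  exact ModularCurve.jq_ne_zero
    ((ModularCurve.coeffEmb Kbar).injective (h2.trans (map_zero _).symm))

/-- the middle chart `B_m = B₀[1/j]`. -/
def h85modelMid : Subring (FF M) where
  carrier := {x | ∃ k : ℕ, jB M ^ k * x ∈ modelFin M A}
  mul_mem' := by
    rintro x y ⟨m, hm⟩ ⟨n, hn⟩
    refine ⟨m + n, ?_⟩
    have : jB M ^ (m + n) * (x * y) = (jB M ^ m * x) * (jB M ^ n * y) := by ring
    rw [this]
    exact mul_mem hm hn
  one_mem' := ⟨0, by rw [pow_zero, one_mul]; exact one_mem _⟩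
  add_mem' := by
    rintro x y ⟨m, hm⟩ ⟨n, hn⟩
    refine ⟨m + n, ?_⟩
    have : jB M ^ (m + n) * (x + y) = jB M ^ n * (jB M ^ m * x) + jB M ^ m * (jB M ^ n * y) := by
      ring
    rw [this]
    exact add_mem (mul_mem (pow_mem (h85_jB_mem_modelFin M A) n) hm)
      (mul_mem (pow_mem (h85_jB_mem_modelFin M A) m) hn)
  zero_mem' := ⟨0, by rw [mul_zero]; exact zero_mem _⟩
  neg_mem' := by
    rintro x ⟨m, hm⟩
    exact ⟨m, by rw [mul_neg]; exact neg_mem hm⟩

theorem h85_mem_modelMid {x : FF M} :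
    x ∈ h85modelMid M A ↔ ∃ k : ℕ, jB M ^ k * x ∈ modelFin M A :=
  Iff.rfl

theorem h85_modelFin_le_modelMid : modelFin M A ≤ h85modelMid M A :=
  fun x hx => ⟨0, by rw [pow_zero, one_mul]; exact hx⟩

theorem h85_modelInf_le_modelMid : modelInf M A ≤ h85modelMid M A :=
  fun _ hx => h85_exists_pow_mul_mem_modelAt M A (h85_jB_ne_zero M) hx

theorem h85_jB_inv_mem_modelMid : (jB M)⁻¹ ∈ h85modelMid M A :=
  h85_modelInf_le_modelMid M A (h85_jB_inv_mem_modelInf M A)

/-- `hm0` of the gate. -/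
theorem h85_modelMid_scale_fin {x : FF M} (hx : x ∈ h85modelMid M A) :
    ∃ k : ℕ, jB M ^ k * x ∈ modelFin M A := hx

/-- `hminf` of the gate. -/
theorem h85_modelMid_scale_inf {x : FF M} (hx : x ∈ h85modelMid M A) :
    ∃ k : ℕ, (jB M)⁻¹ ^ k * x ∈ modelInf M A := by
  obtain ⟨k, hk⟩ := hx
  have h1 : jB M ^ k * x ∈ modelAt M A ((jB M)⁻¹)⁻¹ := by
    rw [inv_inv]; exact hk
  obtain ⟨n, hn⟩ := h85_exists_pow_mul_mem_modelAt M A (inv_ne_zero (h85_jB_ne_zero M)) h1
  refine ⟨n + k, ?_⟩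
  have h3 : (jB M)⁻¹ ^ k * jB M ^ k = 1 := by
    rw [← mul_pow, inv_mul_cancel₀ (h85_jB_ne_zero M), one_pow]
  have h2 : (jB M)⁻¹ ^ (n + k) * x =
      (jB M)⁻¹ ^ (2 * k) * ((jB M)⁻¹ ^ n * (jB M ^ k * x)) := by
    have e : (jB M)⁻¹ ^ (2 * k) * ((jB M)⁻¹ ^ n * (jB M ^ k * x)) =
        (jB M)⁻¹ ^ (n + k) * x * ((jB M)⁻¹ ^ k * jB M ^ k) := by ring
    rw [e, h3, mul_one]
  rw [h2]
  exact mul_mem (pow_mem (h85_jB_inv_mem_modelInf M A) _) hn

/-- the middle chart is root closed. -/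
theorem h85_modelMid_root_closed {y : FF M} {n : ℕ} (hn : n ≠ 0)
    (hy : y ^ n ∈ h85modelMid M A) : y ∈ h85modelMid M A := by
  obtain ⟨k, hk⟩ := hy
  refine ⟨k, h85_modelAt_root_closed M A (jB M) hn ?_⟩
  have h1 : (jB M ^ k * y) ^ n = jB M ^ (k * (n - 1)) * (jB M ^ k * y ^ n) := by
    rw [mul_pow, ← pow_mul, ← mul_assoc, ← pow_add]
    congr 2
    cases n with
    | zero => exact absurd rfl hn
    | succ m => simp [Nat.mul_succ]
  rw [h1]
  exact mul_mem (pow_mem (h85_jB_mem_modelFin M A) _) hk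

/-- **QEP** for the middle chart from **QEP** for the finite chart. -/
theorem h85_modelMid_qep (V : Subring (FF M)) (hjV : jB M ∈ V) (c : FF M)
    (hqep : ∀ x ∈ V, c * x ∈ modelFin M A → x ∈ modelFin M A) {x : FF M} (hx : x ∈ V)
    (hcx : c * x ∈ h85modelMid M A) : x ∈ h85modelMid M A := by
  obtain ⟨k, hk⟩ := hcx
  refine ⟨k, hqep _ (mul_mem (pow_mem hjV k) hx) ?_⟩
  have : c * (jB M ^ k * x) = jB M ^ k * (c * x) := by ring
  rw [this]
  exact hk

/-- the middle chart is contained in every subring containing the finite chart and `1/j`. -/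
theorem h85_modelMid_le (V : Subring (FF M)) (hV : modelFin M A ≤ V) (hjV : (jB M)⁻¹ ∈ V) :
    h85modelMid M A ≤ V := by
  rintro x ⟨k, hk⟩
  have h1 : x = (jB M)⁻¹ ^ k * (jB M ^ k * x) := by
    rw [← mul_assoc, ← mul_pow, inv_mul_cancel₀ (h85_jB_ne_zero M), one_pow, one_mul]
  rw [h1]
  exact mul_mem (pow_mem hjV k) (hV hk)

end Fermat.Agent.Red.ModelO
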