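import Fermat.Agent.S37.Defs

/-!
# P-RED / R-MODEL: the chart rings of the normal model, valuative description

`modelAt M A t` (helper37, `S37/Defs.lean`) is the integral closure in `FF M` of the subring
`A[t]`.  This file provides

* `h85_isIntegral_range_iff` : integrality over the range of a ring homomorphism;
* `h85_ringAdj_eq_range`, `h85_mem_modelAt_iff_isIntegralElem` : `modelAt` through
  `RingHom.IsIntegralElem` of the evaluation `A[X] → FF M`, `X ↦ t`;
* `h85_mem_modelAt_iff_forall` : `y ∈ modelAt M A t` iff `y` lies in every valuation subring of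
  `FF M` which contains the constants of `A` and `t`;
* `h85_modelAt_root_closed` : the charts are root closed;
* `h85_overlap` : **(H3)** an element of `modelAt M A t ∩ modelAt M A t⁻¹` is a constant of `A`.
-/

set_option autoImplicit false

open Polynomial

noncomputable section

namespace Fermat.Agent.Red.ModelO

open Fermat.Agent.S37

/-! ### Integrality over the range of a ring homomorphism -/

theorem h85_isIntegral_range_iff {R S : Type*} [CommRing R] [CommRing S] (f : R →+* S) (y : S) :
    IsIntegral f.range y ↔ f.IsIntegralElem y := by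
  constructor
  · rintro ⟨p, hp, hroot⟩
    rcases subsingleton_or_nontrivial f.range with hsub | hnt
    · refine ⟨1, monic_one, ?_⟩
      have h1 : ((1 : f.range) : S) = ((0 : f.range) : S) := congrArg _ (Subsingleton.elim _ _)
      have h2 : (1 : S) = 0 := by simpa using h1
      rw [eval₂_one]
      exact h2
    · have hl : p ∈ lifts f.rangeRestrict :=
        (lifts_iff_coeff_lifts p).2 fun n => f.rangeRestrict_surjective (p.coeff n)
      obtain ⟨q, hq, -, hqm⟩ := lifts_and_degree_eq_and_monic hl hp
      refine ⟨q, hqm, ?_⟩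
      have h3 : eval₂ (algebraMap f.range S) y (q.map f.rangeRestrict) = 0 := by
        rw [hq]; exact hroot
      rw [eval₂_map] at h3
      exact h3
  · rintro ⟨q, hqm, hroot⟩
    refine ⟨q.map f.rangeRestrict, hqm.map _, ?_⟩
    rw [eval₂_map]
    exact hroot

theorem h85_isIntegral_mono {S : Type*} [CommRing S] {T₁ T₂ : Subring S} (h : T₁ ≤ T₂) {y : S}
    (hy : IsIntegral T₁ y) : IsIntegral T₂ y := by
  obtain ⟨p, hp, hroot⟩ := hy
  refine ⟨p.map (Subring.inclusion h), hp.map _, ?_⟩
  rw [eval₂_map]
  exact hroot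

/-! ### The evaluation homomorphism `A[X] → FF M` -/

/-- the constants of `A` as a ring homomorphism `A → FF M`. -/
def h85cstHom (M : ℕ) (A : ValuationSubring Kbar) : A →+* FF M :=
  (algebraMap Kbar (FF M)).comp A.subtype

@[simp]
theorem h85cstHom_apply (M : ℕ) (A : ValuationSubring Kbar) (a : A) :
    h85cstHom M A a = cst M (a : Kbar) := rfl

/-- evaluation `A[X] → FF M`, `X ↦ t`. -/
def h85ev (M : ℕ) (A : ValuationSubring Kbar) (t : FF M) : Polynomial A →+* FF M :=
  eval₂RingHom (h85cstHom M A) t

@[simp]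
theorem h85ev_C (M : ℕ) (A : ValuationSubring Kbar) (t : FF M) (a : A) :
    h85ev M A t (C a) = cst M (a : Kbar) := by
  simp [h85ev]

@[simp]
theorem h85ev_X (M : ℕ) (A : ValuationSubring Kbar) (t : FF M) :
    h85ev M A t X = t := by
  simp [h85ev]

theorem h85_ringAdj_eq_range (M : ℕ) (A : ValuationSubring Kbar) (t : FF M) :
    ringAdj M A t = (h85ev M A t).range := by
  apply le_antisymm
  · unfold ringAdj
    rw [Subring.closure_le]
    rintro x (⟨a, ha, rfl⟩ | hx)
    · exact ⟨C ⟨a, ha⟩, h85ev_C M A t _⟩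
    · rw [Set.mem_singleton_iff] at hx
      subst hx
      exact ⟨X, h85ev_X M A _⟩
  · rintro x ⟨P, rfl⟩
    induction P using Polynomial.induction_on' with
    | add p q hp hq =>
      rw [map_add]
      exact add_mem hp hq
    | monomial n a =>
      rw [← C_mul_X_pow_eq_monomial, map_mul, map_pow, h85ev_C, h85ev_X]
      refine mul_mem (Subring.subset_closure (Or.inl ⟨a, a.2, rfl⟩)) (pow_mem ?_ n)
      exact Subring.subset_closure (Or.inr rfl)

set_option synthInstance.maxHeartbeats 400000 in
theorem h85_mem_modelAt_iff_isIntegral (M : ℕ) (A : ValuationSubring Kbar) (t y : FF M) :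
    y ∈ modelAt M A t ↔ IsIntegral (ringAdj M A t) y :=
  Iff.rfl

theorem h85_mem_modelAt_iff_isIntegralElem (M : ℕ) (A : ValuationSubring Kbar) (t y : FF M) :
    y ∈ modelAt M A t ↔ (h85ev M A t).IsIntegralElem y := by
  rw [h85_mem_modelAt_iff_isIntegral, ← h85_isIntegral_range_iff]
  constructor
  · exact h85_isIntegral_mono (h85_ringAdj_eq_range M A t).le
  · exact h85_isIntegral_mono (h85_ringAdj_eq_range M A t).ge

/-! ### The valuative criterion -/

theorem h85_mem_modelAt_iff_forall (M : ℕ) (A : ValuationSubring Kbar) (t y : FF M) :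
    y ∈ modelAt M A t ↔
      ∀ W : ValuationSubring (FF M), (∀ a ∈ A, cst M a ∈ W) → t ∈ W → y ∈ W := by
  have key := iInf_valuationSubring_superset (K := FF M)
    (s := (fun a : Kbar => cst M a) '' (A : Set Kbar) ∪ {t})
  have hmem : y ∈ modelAt M A t ↔
      y ∈ (⨅ V : {V : ValuationSubring (FF M) //
        ((fun a : Kbar => cst M a) '' (A : Set Kbar) ∪ {t}) ⊆ V.toSubring}, V.1.toSubring) := by
    rw [key]
    rfl
  rw [hmem, Subring.mem_iInf]
  constructor
  · intro h W hA ht
    refine h ⟨W, ?_⟩
    rintro x (⟨a, ha, rfl⟩ | hx)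
    · exact hA a ha
    · rw [Set.mem_singleton_iff] at hx
      subst hx
      exact ht
  · rintro h ⟨W, hW⟩
    exact h W (fun a ha => hW (Or.inl ⟨a, ha, rfl⟩)) (hW (Or.inr rfl))

theorem h85_cst_mem_modelAt (M : ℕ) (A : ValuationSubring Kbar) (t : FF M) {a : Kbar}
    (ha : a ∈ A) : cst M a ∈ modelAt M A t :=
  (h85_mem_modelAt_iff_forall M A t _).2 fun _ hA _ => hA a ha

theorem h85_self_mem_modelAt (M : ℕ) (A : ValuationSubring Kbar) (t : FF M) :
    t ∈ modelAt M A t :=
  (h85_mem_modelAt_iff_forall M A t _).2 fun _ _ ht => ht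

/-- the charts are root closed. -/
theorem h85_modelAt_root_closed (M : ℕ) (A : ValuationSubring Kbar) (t : FF M) {y : FF M}
    {n : ℕ} (hn : n ≠ 0) (hy : y ^ n ∈ modelAt M A t) : y ∈ modelAt M A t := by
  rw [h85_mem_modelAt_iff_forall] at hy ⊢
  intro W hA ht
  have h1 := hy W hA ht
  rw [← W.valuation_le_one_iff] at h1 ⊢
  rw [map_pow] at h1
  exact (pow_le_one_iff_of_nonneg zero_le hn).1 h1

/-! ### (H3): the overlap of the two charts consists of constants -/

/-- an element of `FF M` integral over the constants of `A` is a constant of `A`. -/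
theorem h85_const_of_isIntegralElem (M : ℕ) (A : ValuationSubring Kbar) {y : FF M}
    (hy : (h85cstHom M A).IsIntegralElem y) : ∃ a ∈ A, y = cst M a := by
  obtain ⟨p, hp, hroot⟩ := hy
  -- `y` is integral over `Kbar`
  have hK : IsIntegral Kbar y := by
    refine ⟨p.map A.subtype, hp.map _, ?_⟩
    rw [eval₂_map]
    exact hroot
  -- hence a constant
  obtain ⟨a, rfl⟩ : ∃ a : Kbar, algebraMap Kbar (FF M) a = y := by
    have hirr := minpoly.irreducible hK
    have hdeg := IsAlgClosed.degree_eq_one_of_irreducible Kbar hirr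
    exact minpoly.mem_range_of_degree_eq_one Kbar y hdeg
  refine ⟨a, ?_, rfl⟩
  -- `a` is integral over `A`
  have ha : IsIntegral A a := by
    refine ⟨p, hp, ?_⟩
    have h1 : eval₂ (h85cstHom M A) (algebraMap Kbar (FF M) a) p =
        algebraMap Kbar (FF M) (eval₂ (algebraMap A Kbar) a p) := by
      rw [hom_eval₂]
      rfl
    rw [h1] at hroot
    exact (algebraMap Kbar (FF M)).injective (hroot.trans (map_zero _).symm)
  obtain ⟨b, hb⟩ := IsIntegrallyClosedIn.isIntegral_iff.1 ha
  rw [← hb]
  exact b.2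

set_option synthInstance.maxHeartbeats 400000 in
/-- **(H3).**  An element integral over `A[t]` and over `A[t⁻¹]` is a constant of `A`. -/
theorem h85_overlap (M : ℕ) (A : ValuationSubring Kbar) (t : FF M) {y : FF M}
    (h₀ : y ∈ modelAt M A t) (hinf : y ∈ modelAt M A t⁻¹) : ∃ a ∈ A, y = cst M a := by
  rw [h85_mem_modelAt_iff_forall] at h₀ hinf
  -- `y` is integral over the constants of `A`
  have hint : y ∈ (integralClosure
      (Subring.closure ((fun a : Kbar => cst M a) '' (A : Set Kbar))) (FF M)).toSubring := by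
    rw [← iInf_valuationSubring_superset, Subring.mem_iInf]
    rintro ⟨W, hW⟩
    have hA : ∀ a ∈ A, cst M a ∈ W := fun a ha => hW ⟨a, ha, rfl⟩
    rcases W.mem_or_inv_mem t with ht | ht
    · exact h₀ W hA ht
    · exact hinf W hA ht
  have hint' : IsIntegral (Subring.closure ((fun a : Kbar => cst M a) '' (A : Set Kbar))) y :=
    hint
  have hle : Subring.closure ((fun a : Kbar => cst M a) '' (A : Set Kbar)) ≤
      (h85cstHom M A).range := by
    rw [Subring.closure_le]
    rintro x ⟨a, ha, rfl⟩
    exact ⟨⟨a, ha⟩, rfl⟩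
  exact h85_const_of_isIntegralElem M A
    ((h85_isIntegral_range_iff _ _).1 (h85_isIntegral_mono hle hint'))

/-- **(H3)** for the two charts of the normal model. -/
theorem h85_modelFin_inf_modelInf (M : ℕ) [NeZero M] (A : ValuationSubring Kbar) {y : FF M}
    (h₀ : y ∈ modelFin M A) (hinf : y ∈ modelInf M A) : ∃ a ∈ A, y = cst M a :=
  h85_overlap M A (jB M) h₀ hinf

theorem h85_jB_mem_modelFin (M : ℕ) [NeZero M] (A : ValuationSubring Kbar) :
    jB M ∈ modelFin M A :=
  h85_self_mem_modelAt M A _

theorem h85_jB_inv_mem_modelInf (M : ℕ) [NeZero M] (A : ValuationSubring Kbar) :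
    (jB M)⁻¹ ∈ modelInf M A :=
  h85_self_mem_modelAt M A _

end Fermat.Agent.Red.ModelO
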