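import Fermat.Agent.Red.ModelO.Bridge85
import Fermat.Agent.Red.GGDefs
import Fermat.Agent.Red.GGSection
import Fermat.Agent.Red.SM.InstSkeleton

/-!
# P-RED / R-MODEL: FINITE in the consumer shapes

* `h85_rowFin : SM.Inst.RowFin` (SM-FIN, helper4's instantiation skeleton);
* `h85_ifaceFinite_fin`, `h85_ifaceFinite_inf : GG.IfaceFinite` (leaf L4 of the gate, helper26);
* `h85_ifaceSection_fin`, `h85_ifaceSection_inf : GG.IfaceSection` (leaf L3, from helper71's
  `GG.ifaceSection_of`).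
-/

set_option autoImplicit false

noncomputable section

namespace Fermat.Agent.Red.ModelO

open Fermat.Agent.S37

/-- **SM-FIN**: the row `RowFin` of the smoothness instantiation. -/
theorem h85_rowFin : Fermat.Agent.Red.SM.Inst.RowFin :=
  fun _ hℓ _ _ hℓM _ hA => ⟨h85_modelFin_fg hℓ hℓM hA, h85_modelInf_fg hℓ hℓM hA⟩

/-- leaf **L4** of the gate: FINITE for the finite chart. -/
theorem h85_ifaceFinite_fin {ℓ M : ℕ} [NeZero M] (hℓ : ℓ.Prime) (hℓM : ¬ ℓ ∣ M)
    {A : ValuationSubring Kbar} (hA : A.LiesOverPrime ℓ) :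
    Fermat.Agent.Red.GG.IfaceFinite M A (jB M) :=
  h85_modelFin_fg hℓ hℓM hA

/-- leaf **L4** of the gate: FINITE for the chart at infinity. -/
theorem h85_ifaceFinite_inf {ℓ M : ℕ} [NeZero M] (hℓ : ℓ.Prime) (hℓM : ¬ ℓ ∣ M)
    {A : ValuationSubring Kbar} (hA : A.LiesOverPrime ℓ) :
    Fermat.Agent.Red.GG.IfaceFinite M A (jB M)⁻¹ :=
  h85_modelInf_fg hℓ hℓM hA

/-- leaf **L3** of the gate for the finite chart, unconditionally. -/
theorem h85_ifaceSection_fin {ℓ M : ℕ} [NeZero M] (hℓ : ℓ.Prime) (hℓM : ¬ ℓ ∣ M)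
    {A : ValuationSubring Kbar} (hA : A.LiesOverPrime ℓ) :
    Fermat.Agent.Red.GG.IfaceSection M A (jB M) :=
  Fermat.Agent.Red.GG.ifaceSection_of M A _ (h85_ifaceFinite_fin hℓ hℓM hA)

/-- leaf **L3** of the gate for the chart at infinity, unconditionally. -/
theorem h85_ifaceSection_inf {ℓ M : ℕ} [NeZero M] (hℓ : ℓ.Prime) (hℓM : ¬ ℓ ∣ M)
    {A : ValuationSubring Kbar} (hA : A.LiesOverPrime ℓ) :
    Fermat.Agent.Red.GG.IfaceSection M A (jB M)⁻¹ :=
  Fermat.Agent.Red.GG.ifaceSection_of M A _ (h85_ifaceFinite_inf hℓ hℓM hA)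

end Fermat.Agent.Red.ModelO
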