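import Fermat.Agent.Red.ModelO.Generic85
import Fermat.Agent.Red.SM.HAlg

/-!
# P-RED, gate integration: field `hinj` of `GG.IfaceChart` and `GG.IfaceGeneric` (helper85)

The places of `FF M` at which `t` is regular are separated by the chart `modelAt M A t`
(`t` transcendental, e.g. `t = j` or `t = 1/j`): the valuation ring of a place `i` is the
localisation of the chart at the centre of `i`.

* `h85_exists_quot` : (Mathlib only) the largest unit coefficient: a root `x ∈ W` of a polynomial
  with a unit coefficient is a quotient `b' / b`, `b` a unit of `W`, with `b`, `b'` in every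
  valuation ring containing the coefficients.
* `h85_exists_normalised`, `h85_exists_common_denominator` : (Mathlib only) normalisations.
* `h85_exists_chart_quot` : every function regular at a place `i` of the chart is a quotient
  `b' / b` of elements of the chart with `b` a unit at `i`.
* `h85_hinj` : **field `hinj`** for transcendental `t`; `h85_hinj_fin`, `h85_hinj_inf`.
* `h85_ifaceGeneric_fin`, `h85_ifaceGeneric_inf` : **`IfaceGeneric`** for `t = j`, `1/j`.
-/

set_option autoImplicit false
set_option linter.unusedSectionVars false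

open AlgebraicCurve WithZero IsLocalRing Polynomial

noncomputable section

namespace Fermat.Agent.Red.ModelO

/-! ### Mathlib-only lemmas -/

/-- multiplication of a nonunit by an element of the valuation ring. -/
theorem h85_nonunits_mul_mem {F : Type*} [Field F] (W : ValuationSubring F) {x y : F}
    (hx : x ∈ W.nonunits) (hy : y ∈ W) : x * y ∈ W.nonunits := by
  rw [ValuationSubring.mem_nonunits_iff] at hx ⊢
  rw [map_mul]
  have h1 : W.valuation y ≤ 1 := (W.valuation_le_one_iff y).mpr hy
  calc W.valuation x * W.valuation y ≤ W.valuation x * 1 := by gcongr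
    _ = W.valuation x := mul_one _
    _ < 1 := hx

/-- **the largest unit coefficient.**  If `x ∈ W` is a root of a polynomial `p` with
coefficients in the valuation ring `W`, one of which is a unit of `W`, then `x = b' / b` with
`b` a unit of `W`, where `b` and `b'` lie in every valuation ring containing the coefficients of
`p`. -/
theorem h85_exists_quot {F : Type*} [Field F] (W : ValuationSubring F) (p : Polynomial F)
    (x : F) (hx : x ∈ W) (hroot : p.eval x = 0) (hcoe : ∀ j, p.coeff j ∈ W)
    (hunit : ∃ j, p.coeff j ∉ W.nonunits) :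
    ∃ b b' : F, b' = b * x ∧ b ∈ W ∧ b ∉ W.nonunits ∧
      ∀ V : ValuationSubring F, (∀ j, p.coeff j ∈ V) → b ∈ V ∧ b' ∈ V := by
  classical
  rcases eq_or_ne x 0 with rfl | hx0
  · exact ⟨1, 0, by simp, W.one_mem, fun h => by
      rw [ValuationSubring.mem_nonunits_iff, map_one] at h; exact lt_irrefl _ h,
      fun V _ => ⟨V.one_mem, V.zero_mem⟩⟩
  -- the largest index of a unit coefficient
  set S : Finset ℕ := p.support.filter (fun j => p.coeff j ∉ W.nonunits) with hS
  have hSne : S.Nonempty := by
    obtain ⟨j, hj⟩ := hunit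
    refine ⟨j, ?_⟩
    rw [hS, Finset.mem_filter, mem_support_iff]
    exact ⟨fun h0 => hj (h0 ▸ W.nonunits.zero_mem), hj⟩
  set k : ℕ := S.max' hSne with hk
  have hkS : k ∈ S := Finset.max'_mem S hSne
  have hku : p.coeff k ∉ W.nonunits := (Finset.mem_filter.mp hkS).2
  have hgt : ∀ j, k < j → p.coeff j ∈ W.nonunits := by
    intro j hj
    by_contra hcon
    have hjS : j ∈ S := by
      rw [hS, Finset.mem_filter, mem_support_iff]
      exact ⟨fun h0 => hcon (h0 ▸ W.nonunits.zero_mem), hcon⟩
    exact absurd (Finset.le_max' S j hjS) (not_le.mpr hj)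
  have hkn : k ≤ p.natDegree := le_natDegree_of_mem_supp k (Finset.mem_filter.mp hkS).1
  set n : ℕ := p.natDegree with hn
  set b : F := ∑ j ∈ Finset.range (n + 1 - k), p.coeff (k + j) * x ^ j with hb
  set r : F := ∑ j ∈ Finset.range k, p.coeff j * x ^ j with hr
  set b' : F := -∑ j ∈ Finset.range k, p.coeff j * (x⁻¹) ^ (k - 1 - j) with hb'
  -- the relation
  have hrel : r + x ^ k * b = 0 := by
    have h1 : p.eval x = ∑ j ∈ Finset.range (k + (n + 1 - k)), p.coeff j * x ^ j := by
      rw [eval_eq_sum_range, show k + (n + 1 - k) = n + 1 by omega]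
    rw [Finset.sum_range_add] at h1
    rw [← hroot, h1, hb, Finset.mul_sum]
    congr 1
    refine Finset.sum_congr rfl fun j _ => ?_
    rw [pow_add]; ring
  have hbx : b' = b * x := by
    rcases Nat.eq_zero_or_pos k with hk0 | hkpos
    · have hr0 : r = 0 := by rw [hr, hk0, Finset.range_zero, Finset.sum_empty]
      have hb0 : b = 0 := by
        have := hrel
        rw [hr0, zero_add, hk0, pow_zero, one_mul] at this
        exact this
      rw [hb0, zero_mul, hb', hk0, Finset.range_zero, Finset.sum_empty, neg_zero]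
    · have hxk : x ^ (k - 1) ≠ 0 := pow_ne_zero _ hx0
      apply mul_left_cancel₀ hxk
      have h2 : x ^ (k - 1) * (b * x) = x ^ k * b := by
        have : x ^ k = x ^ (k - 1) * x := by
          rw [← pow_succ, show k - 1 + 1 = k by omega]
        rw [this]; ring
      have h3 : x ^ (k - 1) * b' = -r := by
        rw [hb', hr, mul_neg, Finset.mul_sum]
        congr 1
        refine Finset.sum_congr rfl fun j hj => ?_
        have hjk : j < k := Finset.mem_range.mp hj
        have h4 : x ^ (k - 1) = x ^ (k - 1 - j) * x ^ j := by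
          rw [← pow_add, show k - 1 - j + j = k - 1 by omega]
        rw [h4, inv_pow]
        have h5 : x ^ (k - 1 - j) ≠ 0 := pow_ne_zero _ hx0
        field_simp
      rw [h2, h3]
      linear_combination -hrel
  -- `b` is a unit of `W`
  have hbW : b ∈ W := by
    rw [hb]
    exact sum_mem fun j _ => W.mul_mem _ _ (hcoe _) (pow_mem hx j)
  have hbu : b ∉ W.nonunits := by
    intro hbn
    apply hku
    have h1 : b = p.coeff k + ∑ j ∈ Finset.range (n - k), p.coeff (k + (j + 1)) * x ^ (j + 1) := by
      rw [hb, show n + 1 - k = (n - k) + 1 by omega, Finset.sum_range_succ', add_comm]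
      simp
    have h2 : ∑ j ∈ Finset.range (n - k), p.coeff (k + (j + 1)) * x ^ (j + 1) ∈ W.nonunits := by
      refine sum_mem fun j _ => ?_
      exact h85_nonunits_mul_mem W (hgt _ (by omega)) (pow_mem hx _)
    have h3 : p.coeff k = b - ∑ j ∈ Finset.range (n - k), p.coeff (k + (j + 1)) * x ^ (j + 1) := by
      rw [h1]; ring
    rw [h3]
    exact sub_mem hbn h2
  refine ⟨b, b', hbx, hbW, hbu, fun V hV => ?_⟩
  rcases V.mem_or_inv_mem x with hxV | hxV
  · have hbV : b ∈ V := by
      rw [hb]
      exact sum_mem fun j _ => V.mul_mem _ _ (hV _) (pow_mem hxV j)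
    exact ⟨hbV, hbx ▸ V.mul_mem _ _ hbV hxV⟩
  · have hb'V : b' ∈ V := by
      rw [hb']
      exact neg_mem (sum_mem fun j _ => V.mul_mem _ _ (hV _) (pow_mem hxV _))
    refine ⟨?_, hb'V⟩
    have h1 : b = b' * x⁻¹ := by
      rw [hbx, mul_assoc, mul_inv_cancel₀ hx0, mul_one]
    rw [h1]
    exact V.mul_mem _ _ hb'V hxV

/-- dividing a nonzero polynomial in two variables by the largest power of `X - c`. -/
theorem h85_exists_normalised {K : Type*} [Field K] (P : Polynomial (Polynomial K))
    (hP : P ≠ 0) (c : K) :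
    ∃ (m : ℕ) (P' : Polynomial (Polynomial K)),
      P = C ((X - C c) ^ m) * P' ∧ ∃ j, (P'.coeff j).eval c ≠ 0 := by
  have hD : ¬ IsUnit (C (X - C c) : Polynomial (Polynomial K)) := by
    rw [Polynomial.isUnit_C]
    exact Polynomial.not_isUnit_X_sub_C c
  have hfin : FiniteMultiplicity (C (X - C c) : Polynomial (Polynomial K)) P :=
    FiniteMultiplicity.of_not_isUnit hD hP
  obtain ⟨P', hP', hndvd⟩ := hfin.exists_eq_pow_mul_and_not_dvd
  refine ⟨multiplicity (C (X - C c) : Polynomial (Polynomial K)) P, P', ?_, ?_⟩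
  · rw [C_pow]; exact hP'
  · by_contra hcon
    simp only [not_exists, not_not] at hcon
    apply hndvd
    rw [Polynomial.C_dvd_iff_dvd_coeff]
    intro j
    rw [Polynomial.dvd_iff_isRoot]
    exact hcon j

/-- common denominators in a valuation ring. -/
theorem h85_exists_common_denominator {K : Type*} [Field K] (A : ValuationSubring K)
    (S : Finset K) : ∃ a : K, a ∈ A ∧ a ≠ 0 ∧ ∀ c ∈ S, a * c ∈ A := by
  classical
  induction S using Finset.induction_on with
  | empty => exact ⟨1, A.one_mem, one_ne_zero, fun c hc => absurd hc (Finset.notMem_empty c)⟩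
  | insert d S _ ih =>
    obtain ⟨a, haA, ha0, ha⟩ := ih
    by_cases hd : d ∈ A
    · refine ⟨a, haA, ha0, fun c hc => ?_⟩
      rcases Finset.mem_insert.mp hc with rfl | hc
      · exact A.mul_mem _ _ haA hd
      · exact ha c hc
    · have hd0 : d ≠ 0 := fun h => hd (h ▸ A.zero_mem)
      have hdinv : d⁻¹ ∈ A := (A.mem_or_inv_mem d).resolve_left hd
      refine ⟨a * d⁻¹, A.mul_mem _ _ haA hdinv, mul_ne_zero ha0 (inv_ne_zero hd0),
        fun c hc => ?_⟩
      rcases Finset.mem_insert.mp hc with rfl | hc
      · rw [mul_assoc, inv_mul_cancel₀ hd0, mul_one]; exact haA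
      · rw [mul_right_comm]; exact A.mul_mem _ _ (ha c hc) hdinv

/-- common denominators for the coefficients of a polynomial in two variables. -/
theorem h85_exists_denominator_coeff {K : Type*} [Field K] (A : ValuationSubring K)
    (P : Polynomial (Polynomial K)) :
    ∃ a : K, a ∈ A ∧ a ≠ 0 ∧ ∀ i j : ℕ, a * (P.coeff i).coeff j ∈ A := by
  classical
  obtain ⟨a, haA, ha0, ha⟩ := h85_exists_common_denominator A
    (P.support.biUnion fun i => (P.coeff i).support.image fun j => (P.coeff i).coeff j)
  refine ⟨a, haA, ha0, fun i j => ?_⟩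
  by_cases hi : P.coeff i = 0
  · rw [hi, coeff_zero, mul_zero]; exact A.zero_mem
  by_cases hj : (P.coeff i).coeff j = 0
  · rw [hj, mul_zero]; exact A.zero_mem
  refine ha _ ?_
  rw [Finset.mem_biUnion]
  exact ⟨i, mem_support_iff.2 hi, Finset.mem_image.2 ⟨j, mem_support_iff.2 hj, rfl⟩⟩

/-! ### The function field -/

set_option synthInstance.maxHeartbeats 400000

open Fermat.Agent.S37 Fermat.Agent.Red.GV Fermat.Agent.Red.GG Fermat.Agent.Red.Match

variable {M : ℕ} [NeZero M]

/-- the value of a polynomial in `t`. -/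
theorem h85_valueAt_aeval (v : Place Kbar (FF M)) {t : FF M} {c : Kbar} (h : ValueAt v t c)
    (q : Polynomial Kbar) : ValueAt v (aeval t q) (q.eval c) := by
  induction q using Polynomial.induction_on' with
  | add p q hp hq =>
    rw [map_add, eval_add]
    exact valueAt_add hp hq
  | monomial n a =>
    rw [aeval_monomial, eval_monomial]
    refine valueAt_mul (valueAt_cst v a) ?_
    induction n with
    | zero => simpa using valueAt_one v
    | succ n ih => rw [pow_succ, pow_succ]; exact valueAt_mul ih h

/-- a polynomial in `t` with coefficients in `A` lies in every valuation ring containing `A`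
and `t`. -/
theorem h85_aeval_mem (A : ValuationSubring Kbar) (t : FF M) (V : ValuationSubring (FF M))
    (hA : ∀ a ∈ A, cst M a ∈ V) (ht : t ∈ V) (q : Polynomial Kbar)
    (hq : ∀ k, q.coeff k ∈ A) : aeval t q ∈ V := by
  rw [aeval_eq_sum_range]
  refine sum_mem fun k _ => ?_
  rw [Algebra.smul_def]
  exact V.mul_mem _ _ (hA _ (hq k)) (pow_mem ht k)

/-- **the valuation ring of a place of the chart is a localisation of the chart**: every
function regular at the place `i` is a quotient `b' / b` of functions of the chart, with `b` a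
unit at `i`. -/
theorem h85_exists_chart_quot (A : ValuationSubring Kbar) (t : FF M)
    (ht : Transcendental Kbar t)
    (halg : ∀ y : FF M, IsAlgebraic (Algebra.adjoin Kbar {t}) y)
    (i : ChartPlace M t) (x : FF M) (hx : x ∈ i.1.toValuationSubring) :
    ∃ b b' : chart M A t, (b' : FF M) = (b : FF M) * x ∧
      (b : FF M) ∉ i.1.toValuationSubring.nonunits := by
  classical
  obtain ⟨Q, hQ0, hQ⟩ := halg x
  -- lift the relation to a polynomial in two variables
  set tA : Algebra.adjoin Kbar {t} := ⟨t, Algebra.subset_adjoin (Set.mem_singleton t)⟩ with htA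
  set f : Polynomial Kbar →+* Algebra.adjoin Kbar {t} :=
    (aeval tA : Polynomial Kbar →ₐ[Kbar] Algebra.adjoin Kbar {t}).toRingHom with hf
  have hfval : ∀ q : Polynomial Kbar, ((f q : Algebra.adjoin Kbar {t}) : FF M) = aeval t q :=
    fun q => aeval_subalgebra_coe q _ tA
  have hfsurj : Function.Surjective f := by
    intro y
    have hy : (y : FF M) ∈ (aeval t : Polynomial Kbar →ₐ[Kbar] FF M).range := by
      rw [← Algebra.adjoin_singleton_eq_range_aeval]
      exact y.2
    obtain ⟨q, hq⟩ := hy
    exact ⟨q, Subtype.ext ((hfval q).trans hq)⟩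
  obtain ⟨P, hP⟩ := Polynomial.map_surjective f hfsurj Q
  have hP0 : P ≠ 0 := by
    rintro rfl
    exact hQ0 (by rw [← hP, Polynomial.map_zero])
  set φ : Polynomial Kbar →+* FF M :=
    (aeval t : Polynomial Kbar →ₐ[Kbar] FF M).toRingHom with hφ
  have hφf : (algebraMap (Algebra.adjoin Kbar {t}) (FF M)).comp f = φ :=
    RingHom.ext fun q => hfval q
  have hPx : eval₂ φ x P = 0 := by
    rw [← hP, aeval_def, eval₂_map, hφf] at hQ
    exact hQ
  -- normalise at the value of `t`
  obtain ⟨c, hc⟩ := exists_valueAt i.1 i.2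
  obtain ⟨m, P', hPP', j₀, hj₀⟩ := h85_exists_normalised P hP0 c
  have htc : φ (X - C c) ≠ 0 := by
    intro h0
    have h1 : (X - C c : Polynomial Kbar) = 0 :=
      (transcendental_iff_injective.mp ht) (h0.trans (map_zero _).symm)
    exact Polynomial.X_sub_C_ne_zero c h1
  have hP'x : eval₂ φ x P' = 0 := by
    rw [hPP', eval₂_mul, eval₂_C, map_pow] at hPx
    exact (mul_eq_zero.mp hPx).resolve_left (pow_ne_zero _ htc)
  -- scale into `A`
  obtain ⟨a, haA, ha0, ha⟩ := h85_exists_denominator_coeff A P'
  set p : Polynomial (FF M) := (C (C a) * P').map φ with hp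
  have hpcoeff : ∀ j, p.coeff j = aeval t (C a * P'.coeff j) := by
    intro j
    rw [hp, coeff_map, coeff_C_mul]
    rfl
  have hroot : p.eval x = 0 := by
    rw [hp, eval_map, eval₂_mul, hP'x, mul_zero]
  have hcoeA : ∀ j k, (C a * P'.coeff j).coeff k ∈ A := by
    intro j k
    rw [coeff_C_mul]
    exact ha j k
  have hcoeV : ∀ V : ValuationSubring (FF M), (∀ a ∈ A, cst M a ∈ V) → t ∈ V →
      ∀ j, p.coeff j ∈ V := by
    intro V hAV htV j
    rw [hpcoeff]
    exact h85_aeval_mem A t V hAV htV _ (hcoeA j)
  have hval : ∀ j, ValueAt i.1 (p.coeff j) (a * (P'.coeff j).eval c) := by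
    intro j
    rw [hpcoeff]
    have := h85_valueAt_aeval i.1 hc (C a * P'.coeff j)
    rwa [eval_mul, eval_C] at this
  have hunit : ∃ j, p.coeff j ∉ i.1.toValuationSubring.nonunits :=
    ⟨j₀, valueAt_ne_zero_not_mem_nonunits (hval j₀) (mul_ne_zero ha0 hj₀)⟩
  obtain ⟨b, b', hbb', -, hbu, hV⟩ := h85_exists_quot i.1.toValuationSubring p x hx hroot
    (hcoeV i.1.toValuationSubring (fun a _ => cst_mem i.1 a) i.2) hunit
  have hbB : b ∈ modelAt M A t := by
    rw [h85_mem_modelAt_iff_forall]
    exact fun V hAV htV => (hV V (hcoeV V hAV htV)).1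
  have hb'B : b' ∈ modelAt M A t := by
    rw [h85_mem_modelAt_iff_forall]
    exact fun V hAV htV => (hV V (hcoeV V hAV htV)).2
  exact ⟨⟨b, hbB⟩, ⟨b', hb'B⟩, hbb', hbu⟩

/-- **field `hinj` of `H26Chart`**: the chart separates the places at which `t` is regular. -/
theorem h85_hinj (A : ValuationSubring Kbar) (t : FF M) (ht : Transcendental Kbar t)
    (halg : ∀ y : FF M, IsAlgebraic (Algebra.adjoin Kbar {t}) y) :
    ∀ i k : ChartPlace M t,
      (∀ b : chart M A t, chartVal M t i (b : FF M) < 1 → chartVal M t k (b : FF M) < 1) →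
        i = k := by
  intro i k h
  have hle : k.1.toValuationSubring ≤ i.1.toValuationSubring := by
    intro x hx
    obtain ⟨b, b', hbb', hbu⟩ := h85_exists_chart_quot A t ht halg k x hx
    have hbi : (b : FF M) ∉ i.1.toValuationSubring.nonunits := by
      intro hcon
      apply hbu
      rw [← h71_adicValuation_lt_one_iff]
      apply h
      show i.1.adicValuation (b : FF M) < 1
      rw [h71_adicValuation_lt_one_iff]
      exact hcon
    have hb0 : (b : FF M) ≠ 0 := fun h0 => hbi (h0 ▸ zero_mem _)
    have hbinv : (b : FF M)⁻¹ ∈ i.1.toValuationSubring := by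
      rw [ValuationSubring.mem_nonunits_iff_or, not_or, not_not] at hbi
      exact hbi.2
    have hx' : x = (b' : FF M) * (b : FF M)⁻¹ := by
      rw [hbb']; field_simp
    rw [hx']
    exact i.1.toValuationSubring.mul_mem _ _ (h85_chart_mem_place A t i b') hbinv
  have heq : k.1.toValuationSubring = i.1.toValuationSubring :=
    ValuationSubring.eq_of_le_of_ne_top _ hle i.1.ne_top'
  exact (Subtype.ext (Place.ext heq)).symm

/-- `1/j` is transcendental. -/
theorem h85_transcendental_jB_inv (M : ℕ) [NeZero M] : Transcendental Kbar (jB M)⁻¹ :=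
  fun h => (Fermat.Agent.S24.transcendental_jBar M) (by simpa using h.inv)

/-- **field `hinj`** for the finite chart. -/
theorem h85_hinj_fin (M : ℕ) [NeZero M] (A : ValuationSubring Kbar) :
    ∀ i k : ChartPlace M (jB M),
      (∀ b : chart M A (jB M), chartVal M (jB M) i (b : FF M) < 1 →
        chartVal M (jB M) k (b : FF M) < 1) → i = k :=
  h85_hinj A (jB M) (Fermat.Agent.S24.transcendental_jBar M)
    (Fermat.Agent.Red.SM.HAlg.h81a_halg_jB M)

/-- **field `hinj`** for the chart at infinity. -/
theorem h85_hinj_inf (M : ℕ) [NeZero M] (A : ValuationSubring Kbar) :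
    ∀ i k : ChartPlace M (jB M)⁻¹,
      (∀ b : chart M A (jB M)⁻¹, chartVal M (jB M)⁻¹ i (b : FF M) < 1 →
        chartVal M (jB M)⁻¹ k (b : FF M) < 1) → i = k :=
  h85_hinj A (jB M)⁻¹ (h85_transcendental_jB_inv M)
    (Fermat.Agent.Red.SM.HAlg.h81a_halg_jB_inv M)

/-- **`IfaceGeneric`** for the finite chart. -/
theorem h85_ifaceGeneric_fin (M : ℕ) [NeZero M] {ℓ : ℕ} (hℓ : ℓ.Prime)
    (A : ValuationSubring Kbar) (hA : A.LiesOverPrime ℓ) : IfaceGeneric M A (jB M) :=
  h85_ifaceGeneric_of_hinj hℓ A hA (jB M) (h85_hinj_fin M A)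

/-- **`IfaceGeneric`** for the chart at infinity. -/
theorem h85_ifaceGeneric_inf (M : ℕ) [NeZero M] {ℓ : ℕ} (hℓ : ℓ.Prime)
    (A : ValuationSubring Kbar) (hA : A.LiesOverPrime ℓ) : IfaceGeneric M A (jB M)⁻¹ :=
  h85_ifaceGeneric_of_hinj hℓ A hA (jB M)⁻¹ (h85_hinj_inf M A)

end Fermat.Agent.Red.ModelO
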