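import Fermat.Agent.Red.ModelO.FiniteStrong
import Fermat.Agent.Bridge.Main
import Fermat.Agent.Red.BC.Main

/-!
# P-RED / R-MODEL: the bridge, and FINITE in the strong form, unconditionally

* `h85_bridge` : a rational function which is integral over `A[t]` (`A` a valuation ring of `ℚ̄`
  over `ℓ`, `t` rational) is integral over `ℤ_(ℓ)[t]`.  Proof by the valuative criterion: a
  valuation ring `W` of `F_ℚ` containing `ℤ_(ℓ)[t]` is dominated by a valuation ring `W'` of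
  `F_{ℚ̄}`; `W' ∩ ℚ̄` is `ℚ̄` or a conjugate `σ A` of `A`, and a rational function integral over
  `A[t]` is integral over `(σ A)[t]`.
* `h85_modelFin_fg`, `h85_modelInf_fg` : **FINITE** (strong form) for the two charts.
-/

set_option autoImplicit false

open Polynomial ModularCurve

open scoped Pointwise

noncomputable section

namespace Fermat.Agent.Red.ModelO

open Fermat.Agent.S37

/-! ### Valuation subrings of `ℚ̄` -/

/-- a valuation subring of `ℚ̄` containing `ℚ` is everything. -/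
theorem h85_mem_of_rat_le (A' : ValuationSubring Kbar)
    (h : ∀ q : ℚ, algebraMap ℚ Kbar q ∈ A') (a : Kbar) : a ∈ A' := by
  have hint : IsIntegral ℚ a :=
    ((AlgebraicClosure.isAlgebraic ℚ).isAlgebraic a).isIntegral
  obtain ⟨p, hp, hroot⟩ := hint
  let φ : ℚ →+* A' := (algebraMap ℚ Kbar).codRestrict A' h
  have ha : IsIntegral A' a := by
    refine ⟨p.map φ, hp.map _, ?_⟩
    rw [eval₂_map]
    exact hroot
  obtain ⟨b, hb⟩ := IsIntegrallyClosedIn.isIntegral_iff.1 ha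
  rw [← hb]
  exact b.2

/-- a valuation subring of `ℚ̄` containing `ℤ_(ℓ)` in which `ℓ` is invertible contains `ℚ`. -/
theorem h85_rat_le_of_unit (ℓ : ℕ) [Fact ℓ.Prime] (A' : ValuationSubring Kbar)
    (hZ : ∀ r : GaloisRep.ratLocalizedAt ℓ, algebraMap ℚ Kbar (r : ℚ) ∈ A')
    (hunit : ((ℓ : Kbar))⁻¹ ∈ A') (q : ℚ) : algebraMap ℚ Kbar q ∈ A' := by
  by_cases hq : q = 0
  · rw [hq, map_zero]; exact zero_mem _
  have hℓ0 : (ℓ : ℚ) ≠ 0 := by exact_mod_cast (Fact.out : ℓ.Prime).ne_zero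
  set n : ℕ := (-padicValRat ℓ q).toNat with hn
  set r : ℚ := q * (ℓ : ℚ) ^ n with hr
  have hr0 : r ≠ 0 := mul_ne_zero hq (pow_ne_zero _ hℓ0)
  have hval : 0 ≤ padicValRat ℓ r := by
    rw [hr, padicValRat.mul hq (pow_ne_zero _ hℓ0), padicValRat.pow, padicValRat.self
      (Fact.out : ℓ.Prime).one_lt, mul_one, hn]
    have := Int.self_le_toNat (-padicValRat ℓ q)
    omega
  have hrmem : r ∈ GaloisRep.ratLocalizedAt ℓ :=
    Fermat.Agent.S28.mem_ratLocalizedAt_of_padicValRat_nonneg ℓ hval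
  have h1 := hZ ⟨r, hrmem⟩
  have h2 : algebraMap ℚ Kbar q = algebraMap ℚ Kbar r * (((ℓ : Kbar))⁻¹) ^ n := by
    rw [hr, map_mul, map_pow, map_natCast, mul_assoc, ← mul_pow, mul_inv_cancel₀, one_pow,
      mul_one]
    exact_mod_cast (Fact.out : ℓ.Prime).ne_zero
  rw [h2]
  exact mul_mem h1 (pow_mem hunit n)

/-- a valuation subring of `ℚ̄` containing `ℤ_(ℓ)` is `ℚ̄` or lies over `ℓ`. -/
theorem h85_top_or_liesOver (ℓ : ℕ) [Fact ℓ.Prime] (A' : ValuationSubring Kbar)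
    (hZ : ∀ r : GaloisRep.ratLocalizedAt ℓ, algebraMap ℚ Kbar (r : ℚ) ∈ A') :
    (∀ a : Kbar, a ∈ A') ∨ A'.LiesOverPrime ℓ := by
  by_cases h : (ℓ : Kbar) ∈ A'.nonunits
  · exact Or.inr h
  · left
    have hunit : ((ℓ : Kbar))⁻¹ ∈ A' := Fermat.Agent.Red.GV.Asm.inv_mem_of_notMem_nonunits A' _ h
    exact h85_mem_of_rat_le A' (h85_rat_le_of_unit ℓ A' hZ hunit)

/-! ### Galois conjugation of the charts -/

/-- a rational function in `modelAt M A t` (`t` rational) lies in `modelAt M (σ • A) t`. -/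
theorem h85_ratEmb_mem_modelAt_smul (M : ℕ) [NeZero M] (A : ValuationSubring Kbar) (σ : GQ)
    (t y : FQ M) (hy : h85ratEmb M y ∈ modelAt M A (h85ratEmb M t)) :
    h85ratEmb M y ∈ modelAt M (σ • A) (h85ratEmb M t) := by
  rw [h85_mem_modelAt_iff_forall] at hy ⊢
  intro W₂ hA₂ ht₂
  -- the conjugate valuation ring
  let W₁ : ValuationSubring (FF M) :=
    W₂.comap ((AlgebraicCurve.SemilinearAut.toRingAut (gal M σ)).toRingHom)
  have hmem : ∀ x : FF M, x ∈ W₁ ↔ gal M σ • x ∈ W₂ := fun x => Iff.rfl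
  have h1 : h85ratEmb M y ∈ W₁ := by
    refine hy W₁ (fun a ha => ?_) ?_
    · rw [hmem, GalI.gal_smul_cst]
      exact hA₂ _ (ValuationSubring.smul_mem_pointwise_smul σ a A ha)
    · rw [hmem, h85_gal_smul_ratEmb]
      exact ht₂
  rw [hmem, h85_gal_smul_ratEmb] at h1
  exact h1

/-! ### The bridge -/

/-- **BRIDGE.** -/
theorem h85_bridge (M ℓ : ℕ) [NeZero M] (hℓ : ℓ.Prime) (A : ValuationSubring Kbar)
    (hA : A.LiesOverPrime ℓ) : h85Bridge ℓ M A := by
  have : Fact ℓ.Prime := ⟨hℓ⟩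
  intro t y hy
  refine (h85_isIntegralElem_iff_forall (h85zlHom ℓ M) t y).2 ?_
  intro W hW ht
  -- a valuation ring of `FF M` dominating the image of `W`
  obtain ⟨W', hle, hloc⟩ :=
    LocalSubring.exists_le_valuationSubring (W.toLocalSubring.map (h85ratEmb M))
  have hsub : ∀ x ∈ W, h85ratEmb M x ∈ W' := fun x hx => hle ⟨x, hx, rfl⟩
  have hnonunit : ∀ x ∈ W, x ≠ 0 → (h85ratEmb M x)⁻¹ ∈ W' → x⁻¹ ∈ W := by
    intro x hx hx0 hinv
    have hιx0 : h85ratEmb M x ≠ 0 := (_root_.map_ne_zero _).mpr hx0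
    let a : (W.toLocalSubring.map (h85ratEmb M)).toSubring := ⟨h85ratEmb M x, ⟨x, hx, rfl⟩⟩
    have hu : IsUnit (Subring.inclusion hle a) := by
      refine IsUnit.of_mul_eq_one (⟨(h85ratEmb M x)⁻¹, hinv⟩) ?_
      apply Subtype.ext
      show h85ratEmb M x * (h85ratEmb M x)⁻¹ = 1
      exact mul_inv_cancel₀ hιx0
    have hua : IsUnit a := hloc.map_nonunit a hu
    obtain ⟨b, hb⟩ := hua.exists_right_inv
    obtain ⟨x', hx', hbx'⟩ := b.2
    have h1 : h85ratEmb M x * h85ratEmb M x' = 1 := by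
      have := congrArg Subtype.val hb
      simpa [a, ← hbx'] using this
    have h2 : x * x' = 1 := h85ratEmb_injective M (by rw [map_mul, h1, map_one])
    have h3 : x⁻¹ = x' := by
      rw [← mul_one x⁻¹, ← h2, ← mul_assoc, inv_mul_cancel₀ hx0, one_mul]
    rw [h3]
    exact hx'
  -- the valuation ring of constants
  let A' : ValuationSubring Kbar := W'.comap (algebraMap Kbar (FF M))
  have hA'mem : ∀ a : Kbar, a ∈ A' ↔ cst M a ∈ W' := fun a => Iff.rfl
  have hZ : ∀ r : GaloisRep.ratLocalizedAt ℓ, algebraMap ℚ Kbar (r : ℚ) ∈ A' := by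
    intro r
    rw [hA'mem, ← h85ratEmb_algebraMap]
    exact hsub _ (hW r)
  -- `ι y ∈ W'`
  have hyW' : h85ratEmb M y ∈ W' := by
    rcases h85_top_or_liesOver ℓ A' hZ with htop | hover
    · exact (h85_mem_modelAt_iff_forall M A _ _).1 hy W'
        (fun a _ => (hA'mem a).1 (htop a)) (hsub t ht)
    · obtain ⟨σ, hσ⟩ := Fermat.Agent.Bridge.exists_smul_eq_of_liesOverPrime hℓ hA hover
      have h1 := h85_ratEmb_mem_modelAt_smul M A σ t y hy
      rw [hσ] at h1
      exact (h85_mem_modelAt_iff_forall M A' _ _).1 h1 W'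
        (fun a ha => (hA'mem a).1 ha) (hsub t ht)
  -- `y ∈ W`
  by_contra hyW
  have hy0 : y ≠ 0 := fun h => hyW (h ▸ zero_mem _)
  have hinvW : y⁻¹ ∈ W := (W.mem_or_inv_mem y).resolve_left hyW
  have h1 := hnonunit y⁻¹ hinvW (inv_ne_zero hy0) (by rw [map_inv₀, inv_inv]; exact hyW')
  rw [inv_inv] at h1
  exact hyW h1

/-! ### FINITE, strong form, unconditionally -/

/-- **FINITE (strong form), finite chart**: `modelFin M A` is generated as an `A[j]`-module by
finitely many of its elements.  This is `GG.IfaceFinite M A (jB M)` and `SM.CoreFin A (jB M)`. -/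
theorem h85_modelFin_fg {ℓ M : ℕ} [NeZero M] (hℓ : ℓ.Prime) (hℓM : ¬ ℓ ∣ M)
    {A : ValuationSubring Kbar} (hA : A.LiesOverPrime ℓ) :
    ∃ S : Finset (FF M), (∀ s ∈ S, s ∈ modelAt M A (jB M)) ∧
      ∀ x ∈ modelAt M A (jB M), ∃ c : FF M → Polynomial A,
        x = ∑ s ∈ S, h85ev M A (jB M) (c s) * s :=
  h85_modelFin_fg_of hℓ hℓM hA (Fermat.Agent.Red.BC.ifaceBaseChange M) (h85_bridge M ℓ hℓ A hA)

/-- **FINITE (strong form), chart at infinity**: `modelInf M A` is generated as an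
`A[1/j]`-module by finitely many of its elements.  This is `GG.IfaceFinite M A (jB M)⁻¹` and
`SM.CoreFin A (jB M)⁻¹`. -/
theorem h85_modelInf_fg {ℓ M : ℕ} [NeZero M] (hℓ : ℓ.Prime) (hℓM : ¬ ℓ ∣ M)
    {A : ValuationSubring Kbar} (hA : A.LiesOverPrime ℓ) :
    ∃ S : Finset (FF M), (∀ s ∈ S, s ∈ modelAt M A (jB M)⁻¹) ∧
      ∀ x ∈ modelAt M A (jB M)⁻¹, ∃ c : FF M → Polynomial A,
        x = ∑ s ∈ S, h85ev M A (jB M)⁻¹ (c s) * s :=
  h85_modelInf_fg_of hℓ hℓM hA (Fermat.Agent.Red.BC.ifaceBaseChange M) (h85_bridge M ℓ hℓ A hA)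

end Fermat.Agent.Red.ModelO
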