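import Fermat.Agent.Red.ModelO.ValCrit
import Fermat.Agent.S37.Inertia

/-!
# P-RED / R-MODEL: rational functions and the charts over `ℤ_(ℓ)`

* `FQ M` : the function field of `X₀(M)` over `ℚ` (inside `ℚ((q))`);
* `h85ratEmb M : FQ M →+* FF M` : base change of rational functions (coefficientwise);
* `h85evQ ℓ M t : ℤ_(ℓ)[X] →+* FQ M`, `X ↦ t`;
* `h85_isIntegralElem_iff_forall` : valuative criterion for `RingHom.IsIntegralElem` of an
  evaluation homomorphism into a field (generic).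
-/

set_option autoImplicit false

open Polynomial ModularCurve

noncomputable section

namespace Fermat.Agent.Red.ModelO

open Fermat.Agent.S37

/-! ### Generic valuative criterion -/

/-- **Valuative criterion**: `y` is integral over `φ(R)[t]` iff it lies in every valuation
subring containing `φ(R)` and `t`. -/
theorem h85_isIntegralElem_iff_forall {R F : Type*} [CommRing R] [Field F] (φ : R →+* F)
    (t y : F) :
    (eval₂RingHom φ t).IsIntegralElem y ↔
      ∀ W : ValuationSubring F, (∀ r : R, φ r ∈ W) → t ∈ W → y ∈ W := by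
  rw [← h85_isIntegral_range_iff]
  have key := iInf_valuationSubring_superset (K := F)
    (s := ((eval₂RingHom φ t).range : Set F))
  rw [Subring.closure_eq] at key
  have hmem : IsIntegral (eval₂RingHom φ t).range y ↔
      y ∈ (⨅ V : {V : ValuationSubring F //
        ((eval₂RingHom φ t).range : Set F) ⊆ V.toSubring}, V.1.toSubring) := by
    rw [key]
    rfl
  rw [hmem, Subring.mem_iInf]
  constructor
  · intro h W hR ht
    refine h ⟨W, ?_⟩
    rintro x ⟨P, rfl⟩
    induction P using Polynomial.induction_on' with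
    | add p q hp hq =>
      rw [map_add]
      exact add_mem hp hq
    | monomial n a =>
      rw [← C_mul_X_pow_eq_monomial, map_mul, map_pow, coe_eval₂RingHom, eval₂_C, eval₂_X]
      exact mul_mem (hR a) (pow_mem ht n)
  · rintro h ⟨W, hW⟩
    refine h W (fun r => hW ⟨C r, ?_⟩) (hW ⟨X, ?_⟩)
    · rw [coe_eval₂RingHom, eval₂_C]
    · rw [coe_eval₂RingHom, eval₂_X]

/-! ### Rational functions -/

/-- the function field of `X₀(M)` over `ℚ`. -/
abbrev FQ (M : ℕ) : Type := ↥(modularFunctionFieldFull M)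

/-- base change of rational functions `F_ℚ → F_{ℚ̄}` (coefficientwise). -/
def h85ratEmb (M : ℕ) : FQ M →+* FF M :=
  RingHom.codRestrict ((coeffEmb Kbar).comp (algebraMap (FQ M) (LaurentSeries ℚ)))
    (modularFunctionFieldBar M) (fun x => coeffEmb_mem_laurentBaseChange Kbar x.2)

@[simp]
theorem coe_h85ratEmb (M : ℕ) (y : FQ M) :
    ((h85ratEmb M y : FF M) : LaurentSeries Kbar) = coeffEmb Kbar (y : LaurentSeries ℚ) := rfl

theorem h85ratEmb_injective (M : ℕ) : Function.Injective (h85ratEmb M) :=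
  (h85ratEmb M).injective

theorem h85_isRat_ratEmb (M : ℕ) (y : FQ M) : IsRat (h85ratEmb M y) :=
  ⟨(y : LaurentSeries ℚ), y.2, rfl⟩

theorem h85_exists_ratEmb_of_isRat {M : ℕ} {f : FF M} (hf : IsRat f) :
    ∃ y : FQ M, h85ratEmb M y = f := by
  obtain ⟨y, hy, hyf⟩ := hf
  exact ⟨⟨y, hy⟩, Subtype.ext hyf⟩

/-- the `j`-function in `F_ℚ`. -/
abbrev h85jQ (M : ℕ) [NeZero M] : FQ M := ModularCurve.IgusaScheme.jFull M

theorem h85ratEmb_jQ (M : ℕ) [NeZero M] : h85ratEmb M (h85jQ M) = jB M :=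
  Subtype.ext rfl

theorem h85ratEmb_jQ_inv (M : ℕ) [NeZero M] : h85ratEmb M (h85jQ M)⁻¹ = (jB M)⁻¹ := by
  rw [map_inv₀, h85ratEmb_jQ]

theorem h85_gal_smul_ratEmb (M : ℕ) [NeZero M] (σ : GQ) (y : FQ M) :
    gal M σ • h85ratEmb M y = h85ratEmb M y :=
  GalI.gal_smul_of_isRat σ (h85_isRat_ratEmb M y)

theorem h85ratEmb_algebraMap (M : ℕ) (r : ℚ) :
    h85ratEmb M (algebraMap ℚ (FQ M) r) = cst M (algebraMap ℚ Kbar r) := by
  have h : (h85ratEmb M).comp (algebraMap ℚ (FQ M)) =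
      (algebraMap Kbar (FF M)).comp (algebraMap ℚ Kbar) := Subsingleton.elim _ _
  exact RingHom.congr_fun h r

/-- the constants of `ℤ_(ℓ)` in `F_ℚ`. -/
def h85zlHom (ℓ M : ℕ) : GaloisRep.ratLocalizedAt ℓ →+* FQ M :=
  (algebraMap ℚ (FQ M)).comp (GaloisRep.ratLocalizedAt ℓ).subtype

@[simp]
theorem h85zlHom_apply (ℓ M : ℕ) (r : GaloisRep.ratLocalizedAt ℓ) :
    h85zlHom ℓ M r = algebraMap ℚ (FQ M) (r : ℚ) := rfl

/-- evaluation `ℤ_(ℓ)[X] → F_ℚ`, `X ↦ t`. -/
def h85evQ (ℓ M : ℕ) (t : FQ M) : Polynomial (GaloisRep.ratLocalizedAt ℓ) →+* FQ M :=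
  eval₂RingHom (h85zlHom ℓ M) t

/-- the chart over `ℤ_(ℓ)`: rational functions integral over `ℤ_(ℓ)[t]`. -/
def h85ratChart (ℓ M : ℕ) (t : FQ M) : Set (FQ M) :=
  {y | (h85evQ ℓ M t).IsIntegralElem y}

end Fermat.Agent.Red.ModelO
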