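import Mathlib
import Fermat.Prelude.Def_GaloisRep_Flat

/-!
# P-RED / R-MODEL: `ℤ_(ℓ) = GaloisRep.ratLocalizedAt ℓ` is a noetherian ring

It is the localisation of `ℤ` at the prime `(ℓ)`.
-/

set_option autoImplicit false

namespace Fermat.Agent.Red.ModelO

theorem h85_inv_intCast_mem (ℓ : ℕ) (hℓ : ℓ.Prime) (n : ℤ) (hn : ¬ (ℓ : ℤ) ∣ n) :
    ((n : ℚ))⁻¹ ∈ GaloisRep.ratLocalizedAt ℓ := by
  show (((n : ℚ))⁻¹).den.Coprime ℓ
  have hn0 : n ≠ 0 := fun h => hn (h ▸ dvd_zero _)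
  have hden : (((n : ℚ))⁻¹).den = n.natAbs := by
    rw [Rat.inv_intCast_den]
    simp [hn0]
  rw [hden]
  refine (Nat.Coprime.symm ?_)
  rw [hℓ.coprime_iff_not_dvd]
  intro h
  exact hn (Int.natCast_dvd.mpr h)

theorem h85_den_not_dvd (ℓ : ℕ) (hℓ : ℓ.Prime) (x : GaloisRep.ratLocalizedAt ℓ) :
    ¬ (ℓ : ℤ) ∣ ((x : ℚ).den : ℤ) := by
  have h : (x : ℚ).den.Coprime ℓ := x.2
  intro hd
  have h2 : ℓ ∣ (x : ℚ).den := by exact_mod_cast hd
  exact (hℓ.coprime_iff_not_dvd.mp h.symm) h2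

theorem h85_isLocalization_ratLocalizedAt (ℓ : ℕ) [hℓ : Fact ℓ.Prime] :
    IsLocalization (Ideal.span {(ℓ : ℤ)}).primeCompl (GaloisRep.ratLocalizedAt ℓ) where
  map_units := by
    rintro ⟨n, hn⟩
    have hn' : ¬ (ℓ : ℤ) ∣ n := fun h => hn (Ideal.mem_span_singleton.mpr h)
    have hn0 : n ≠ 0 := fun h => hn' (h ▸ dvd_zero _)
    refine IsUnit.of_mul_eq_one (⟨((n : ℚ))⁻¹, h85_inv_intCast_mem ℓ hℓ.out n hn'⟩) ?_
    apply Subtype.ext
    simp [hn0]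
  surj := by
    intro x
    have hd := h85_den_not_dvd ℓ hℓ.out x
    refine ⟨((x : ℚ).num, ⟨((x : ℚ).den : ℤ), fun h => hd (Ideal.mem_span_singleton.mp h)⟩), ?_⟩
    apply Subtype.ext
    simp [Rat.mul_den_eq_num]
  exists_of_eq := by
    intro a b h
    refine ⟨1, ?_⟩
    have h1 : ((algebraMap ℤ (GaloisRep.ratLocalizedAt ℓ) a : GaloisRep.ratLocalizedAt ℓ) : ℚ) =
        ((algebraMap ℤ (GaloisRep.ratLocalizedAt ℓ) b : GaloisRep.ratLocalizedAt ℓ) : ℚ) := by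
      rw [h]
    simp at h1
    simp [h1]

theorem h85_isNoetherianRing_ratLocalizedAt (ℓ : ℕ) [Fact ℓ.Prime] :
    IsNoetherianRing (GaloisRep.ratLocalizedAt ℓ) :=
  haveI := h85_isLocalization_ratLocalizedAt ℓ
  IsLocalization.isNoetherianRing (Ideal.span {(ℓ : ℤ)}).primeCompl _ inferInstance

end Fermat.Agent.Red.ModelO
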