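import Fermat.Agent.Red.GGInst
import Fermat.Agent.Red.GGSection
import Fermat.Agent.Red.MatchLoc
import Fermat.Agent.Red.GateGoodOf

/-!
# P-RED, gate integration: `GG.IfaceGeneric` (helper85)

At a maximal ideal `𝔫` of the chart `modelAt M A t` which does not contain `𝔪_A`, at most one
place of `FF M` is centered.

* `h85_chart_mem_place` : the functions of the chart are regular at the places of the chart.
* `h85_cst_notMem_of_generic` : rank one: no nonzero constant of `A` lies in `𝔫`.
* `h85_centered_eq` : the centre of a place centered at `𝔫` is all of `𝔫`.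
* `h85_ifaceGeneric_of_hinj` : `IfaceGeneric` from the separation of places by the chart.
-/

set_option autoImplicit false
set_option linter.unusedSectionVars false

open AlgebraicCurve WithZero IsLocalRing

noncomputable section

namespace Fermat.Agent.Red.ModelO

open Fermat.Agent.S37 Fermat.Agent.Red.GV Fermat.Agent.Red.GG Fermat.Agent.Red.Match

variable {M : ℕ} [NeZero M]

omit [NeZero M] in
/-- the functions of the chart are regular at the places at which `t` is regular. -/
theorem h85_chart_mem_place (A : ValuationSubring Kbar) (t : FF M) (i : ChartPlace M t)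
    (b : chart M A t) : (b : FF M) ∈ i.1.toValuationSubring := by
  have hb : (b : FF M) ∈ modelAt M A t := b.2
  rw [h85_mem_modelAt_iff_forall] at hb
  exact hb i.1.toValuationSubring (fun a _ => cst_mem i.1 a) i.2

/-- rank one: a maximal ideal of the chart which does not contain `𝔪_A` contains no nonzero
constant of `A`. -/
theorem h85_cst_notMem_of_generic {ℓ : ℕ} (hℓ : ℓ.Prime) (A : ValuationSubring Kbar)
    (hA : A.LiesOverPrime ℓ) (t : FF M) (𝔫 : Ideal (chart M A t)) (hmax : 𝔫.IsMaximal)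
    (hgen : ¬ (maximalIdeal A).map (algebraMap A (chart M A t)) ≤ 𝔫)
    (a : A) (ha : a ≠ 0) : algebraMap A (chart M A t) a ∉ 𝔫 := by
  intro ha𝔫
  apply hgen
  rw [Ideal.map_le_iff_le_comap]
  intro c hc
  rw [Ideal.mem_comap]
  rcases eq_or_ne c 0 with rfl | hc0
  · rw [map_zero]; exact 𝔫.zero_mem
  obtain ⟨k, a', hk⟩ := harch_of_liesOver A hℓ hA c hc hc0 a ha
  have h1 : algebraMap A (chart M A t) c ^ k ∈ 𝔫 := by
    rw [← map_pow, hk, map_mul]
    exact 𝔫.mul_mem_right _ ha𝔫
  exact hmax.isPrime.mem_of_pow_mem k h1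

/-- the centre of a place centered at a maximal ideal `𝔫` of the generic fibre is all of
`𝔫`. -/
theorem h85_centered_eq {ℓ : ℕ} (hℓ : ℓ.Prime) (A : ValuationSubring Kbar)
    (hA : A.LiesOverPrime ℓ) (t : FF M) (𝔫 : Ideal (chart M A t)) (hmax : 𝔫.IsMaximal)
    (hgen : ¬ (maximalIdeal A).map (algebraMap A (chart M A t)) ≤ 𝔫)
    (i : ChartPlace M t) (hcen : h26Centered (chart M A t) (chartVal M t) 𝔫 i)
    (y : chart M A t) (hy : y ∈ 𝔫) : chartVal M t i (y : FF M) < 1 := by
  show i.1.adicValuation (y : FF M) < 1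
  rw [h71_adicValuation_lt_one_iff_valueAt]
  obtain ⟨c, hc⟩ := exists_valueAt i.1 (h85_chart_mem_place A t i y)
  rcases eq_or_ne c 0 with rfl | hc0
  · exact hc
  exfalso
  -- `c = a / a'` with `a, a' ∈ A` nonzero
  obtain ⟨a, a', ha0, ha'0, hca⟩ : ∃ a a' : A, a ≠ 0 ∧ a' ≠ 0 ∧ (a' : Kbar) * c = (a : Kbar) := by
    rcases A.mem_or_inv_mem c with h | h
    · exact ⟨⟨c, h⟩, 1, fun h0 => hc0 (congrArg Subtype.val h0), one_ne_zero, by simp⟩
    · refine ⟨1, ⟨c⁻¹, h⟩, one_ne_zero, fun h0 => inv_ne_zero hc0 (congrArg Subtype.val h0), ?_⟩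
      simp [inv_mul_cancel₀ hc0]
  have h1 : algebraMap A (chart M A t) a' * y - algebraMap A (chart M A t) a ∈ 𝔫 := by
    apply hcen
    show i.1.adicValuation (cst M (a' : Kbar) * (y : FF M) - cst M (a : Kbar)) < 1
    rw [h71_adicValuation_lt_one_iff_valueAt]
    have h3 := valueAt_sub (valueAt_mul (valueAt_cst i.1 (a' : Kbar)) hc) (valueAt_cst i.1 (a : Kbar))
    rwa [hca, sub_self] at h3
  have h2 : algebraMap A (chart M A t) a ∈ 𝔫 := by
    have h4 := 𝔫.sub_mem (𝔫.mul_mem_left (algebraMap A (chart M A t) a') hy) h1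
    rwa [sub_sub_cancel] at h4
  exact h85_cst_notMem_of_generic hℓ A hA t 𝔫 hmax hgen a ha0 h2

/-- **`IfaceGeneric` from the separation of the places by the chart** (field `hinj` of
`H26Chart`). -/
theorem h85_ifaceGeneric_of_hinj {ℓ : ℕ} (hℓ : ℓ.Prime) (A : ValuationSubring Kbar)
    (hA : A.LiesOverPrime ℓ) (t : FF M)
    (hinj : ∀ i k : ChartPlace M t,
      (∀ b : chart M A t, chartVal M t i (b : FF M) < 1 → chartVal M t k (b : FF M) < 1) →
        i = k) :
    IfaceGeneric M A t := by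
  intro 𝔫 hmax hgen i k hi hk
  refine hinj i k fun b hb => ?_
  exact h85_centered_eq hℓ A hA t 𝔫 hmax hgen k hk b (hi b hb)

/-- `IfaceGeneric` from `IfaceChart`. -/
theorem h85_ifaceGeneric_of_chart {ℓ : ℕ} (hℓ : ℓ.Prime) (A : ValuationSubring Kbar)
    (hA : A.LiesOverPrime ℓ) (t : FF M) (hC : IfaceChart M A t) :
    IfaceGeneric M A t :=
  h85_ifaceGeneric_of_hinj hℓ A hA t hC.hinj

end Fermat.Agent.Red.ModelO
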