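import Fermat.Agent.Red.ModelO.RatFinite
import Fermat.Agent.Red.GV.Bar
import Fermat.Agent.S37.Skeleton

/-!
# P-RED / R-MODEL: FINITE, strong form

The charts `modelAt M A t` (`t = j` or `t = 1/j`, `A` a valuation ring of `ℚ̄` over `ℓ`, possibly
non-noetherian) are finitely generated modules over `A[t]`, with generators in the chart
(indeed rational generators, integral over `ℤ_(ℓ)[t]`), as soon as the chart is generated as a
ring by the constants of `A` and rational functions integral over `ℤ_(ℓ)[t]`.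

* `h85_modelAt_fg` : the statement with the base change hypothesis in the strong form.
* `h85_modelFin_fg_of`, `h85_modelInf_fg_of` : from `IfaceBaseChange M` and the bridge
  (rational + integral over `A[t]` ⟹ integral over `ℤ_(ℓ)[t]`).
-/

set_option autoImplicit false

open Polynomial ModularCurve

noncomputable section

namespace Fermat.Agent.Red.ModelO

open Fermat.Agent.S37

variable (ℓ M : ℕ) [NeZero M] [Fact ℓ.Prime] (A : ValuationSubring Kbar)

/-- `ℤ_(ℓ) ⊆ A`. -/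
theorem h85_exists_zlIncl (hA : A.LiesOverPrime ℓ) :
    ∃ incl : GaloisRep.ratLocalizedAt ℓ →+* A,
      ∀ r, ((incl r : A) : Kbar) = algebraMap ℚ Kbar (r : ℚ) := by
  obtain ⟨ι, -, hι, -⟩ := Fermat.Agent.Red.GV.exists_baseHom A (IsLocalRing.residue A) ℓ
    (Fermat.Agent.Red.GV.isResidueMap_residue A ℓ hA)
  exact ⟨ι, hι⟩

variable {ℓ M A}

set_option linter.unusedSectionVars false

theorem h85_ratEmb_evQ (incl : GaloisRep.ratLocalizedAt ℓ →+* A)
    (hincl : ∀ r, ((incl r : A) : Kbar) = algebraMap ℚ Kbar (r : ℚ)) (t : FQ M)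
    (P : Polynomial (GaloisRep.ratLocalizedAt ℓ)) :
    h85ratEmb M (h85evQ ℓ M t P) = h85ev M A (h85ratEmb M t) (P.map incl) := by
  have h : (h85ratEmb M).comp (h85evQ ℓ M t) =
      (h85ev M A (h85ratEmb M t)).comp (mapRingHom incl) := by
    refine Polynomial.ringHom_ext (fun r => ?_) ?_
    · simp only [RingHom.comp_apply, coe_mapRingHom, map_C, h85ev_C, hincl]
      rw [h85evQ, coe_eval₂RingHom, eval₂_C, h85zlHom_apply, h85ratEmb_algebraMap]
    · simp only [RingHom.comp_apply, coe_mapRingHom, map_X, h85ev_X]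
      rw [h85evQ, coe_eval₂RingHom, eval₂_X]
  exact RingHom.congr_fun h P

/-- rational functions integral over `ℤ_(ℓ)[t]` are integral over `A[t]`. -/
theorem h85_ratEmb_mem_modelAt (hA : A.LiesOverPrime ℓ) {t y : FQ M}
    (hy : (h85evQ ℓ M t).IsIntegralElem y) : h85ratEmb M y ∈ modelAt M A (h85ratEmb M t) := by
  obtain ⟨incl, hincl⟩ := h85_exists_zlIncl ℓ A hA
  rw [h85_mem_modelAt_iff_isIntegralElem]
  obtain ⟨p, hp, hroot⟩ := hy
  refine ⟨p.map (mapRingHom incl), hp.map _, ?_⟩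
  rw [eval₂_map]
  have h : (h85ev M A (h85ratEmb M t)).comp (mapRingHom incl) =
      (h85ratEmb M).comp (h85evQ ℓ M t) :=
    RingHom.ext fun P => (h85_ratEmb_evQ incl hincl t P).symm
  rw [h, ← hom_eval₂, hroot, map_zero]

/-! ### The span of finitely many rational functions -/

/-- `x` is an `A[t]`-combination of the images of the elements of `S₀`. -/
def h85InSpan (A : ValuationSubring Kbar) (t : FF M) (S₀ : Finset (FQ M)) (x : FF M) : Prop :=
  ∃ c : FQ M → Polynomial A, x = ∑ s ∈ S₀, h85ev M A t (c s) * h85ratEmb M s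

theorem h85InSpan_zero (t : FF M) (S₀ : Finset (FQ M)) : h85InSpan A t S₀ 0 :=
  ⟨fun _ => 0, by simp⟩

theorem h85InSpan_add {t : FF M} {S₀ : Finset (FQ M)} {x y : FF M}
    (hx : h85InSpan A t S₀ x) (hy : h85InSpan A t S₀ y) : h85InSpan A t S₀ (x + y) := by
  obtain ⟨c, rfl⟩ := hx
  obtain ⟨d, rfl⟩ := hy
  refine ⟨fun s => c s + d s, ?_⟩
  rw [← Finset.sum_add_distrib]
  refine Finset.sum_congr rfl fun s _ => ?_
  rw [map_add, add_mul]

theorem h85InSpan_smul {t : FF M} {S₀ : Finset (FQ M)} (P : Polynomial A) {x : FF M}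
    (hx : h85InSpan A t S₀ x) : h85InSpan A t S₀ (h85ev M A t P * x) := by
  obtain ⟨c, rfl⟩ := hx
  refine ⟨fun s => P * c s, ?_⟩
  rw [Finset.mul_sum]
  refine Finset.sum_congr rfl fun s _ => ?_
  rw [map_mul, mul_assoc]

theorem h85InSpan_neg {t : FF M} {S₀ : Finset (FQ M)} {x : FF M}
    (hx : h85InSpan A t S₀ x) : h85InSpan A t S₀ (-x) := by
  have h := h85InSpan_smul (-1 : Polynomial A) hx
  rwa [map_neg, map_one, neg_one_mul] at h

theorem h85InSpan_sum {t : FF M} {S₀ : Finset (FQ M)} {ι : Type*} (I : Finset ι)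
    (f : ι → FF M) (hf : ∀ i ∈ I, h85InSpan A t S₀ (f i)) :
    h85InSpan A t S₀ (∑ i ∈ I, f i) := by
  classical
  induction I using Finset.induction_on with
  | empty => simpa using h85InSpan_zero (A := A) t S₀
  | insert a I ha ih =>
    rw [Finset.sum_insert ha]
    exact h85InSpan_add (hf a (Finset.mem_insert_self a I))
      (ih fun i hi => hf i (Finset.mem_insert_of_mem hi))

/-- the image of a rational function in the `ℤ_(ℓ)[t]`-span of `S₀` is in the `A[t]`-span. -/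
theorem h85InSpan_ratEmb (incl : GaloisRep.ratLocalizedAt ℓ →+* A)
    (hincl : ∀ r, ((incl r : A) : Kbar) = algebraMap ℚ Kbar (r : ℚ)) {t : FQ M}
    {S₀ : Finset (FQ M)} {y : FQ M}
    (hy : ∃ c : FQ M → Polynomial (GaloisRep.ratLocalizedAt ℓ),
      y = ∑ s ∈ S₀, h85evQ ℓ M t (c s) * s) :
    h85InSpan A (h85ratEmb M t) S₀ (h85ratEmb M y) := by
  obtain ⟨c, rfl⟩ := hy
  refine ⟨fun s => (c s).map incl, ?_⟩
  rw [map_sum]
  refine Finset.sum_congr rfl fun s _ => ?_
  rw [map_mul, h85_ratEmb_evQ incl hincl]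

/-- **FINITE, strong form.** -/
theorem h85_modelAt_fg (hA : A.LiesOverPrime ℓ) (t : FQ M)
    (ht : t = h85jQ M ∨ t = (h85jQ M)⁻¹)
    (H : ∀ x ∈ modelAt M A (h85ratEmb M t), x ∈ Subring.closure
      ((fun a : Kbar => cst M a) '' (A : Set Kbar) ∪
        {f | ∃ y : FQ M, (h85evQ ℓ M t).IsIntegralElem y ∧ h85ratEmb M y = f})) :
    ∃ S₀ : Finset (FQ M), (∀ s ∈ S₀, (h85evQ ℓ M t).IsIntegralElem s) ∧
      (∀ s ∈ S₀, h85ratEmb M s ∈ modelAt M A (h85ratEmb M t)) ∧
      ∀ x ∈ modelAt M A (h85ratEmb M t),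
        ∃ c : FQ M → Polynomial A,
          x = ∑ s ∈ S₀, h85ev M A (h85ratEmb M t) (c s) * h85ratEmb M s := by
  classical
  obtain ⟨incl, hincl⟩ := h85_exists_zlIncl ℓ A hA
  obtain ⟨S₀, hS₀int, hS₀gen⟩ := h85_ratChart_fg ℓ M t ht
  refine ⟨S₀, hS₀int, fun s hs => h85_ratEmb_mem_modelAt hA (hS₀int s hs), fun x hx => ?_⟩
  -- images of integral rational functions are in the span
  have hrat : ∀ y : FQ M, (h85evQ ℓ M t).IsIntegralElem y →
      h85InSpan A (h85ratEmb M t) S₀ (h85ratEmb M y) :=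
    fun y hy => h85InSpan_ratEmb incl hincl (hS₀gen y hy)
  have hone : h85InSpan A (h85ratEmb M t) S₀ 1 := by
    have h := hrat 1 (RingHom.isIntegralElem_one _)
    rwa [map_one] at h
  have key : ∀ z, z ∈ Subring.closure
      ((fun a : Kbar => cst M a) '' (A : Set Kbar) ∪
        {f | ∃ y : FQ M, (h85evQ ℓ M t).IsIntegralElem y ∧ h85ratEmb M y = f}) →
      h85InSpan A (h85ratEmb M t) S₀ z := by
    intro z hz
    induction hz using Subring.closure_induction with
    | mem y hy =>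
      rcases hy with ⟨a, ha, rfl⟩ | ⟨y₀, hy₀, rfl⟩
      · have h := h85InSpan_smul (C (⟨a, ha⟩ : A)) hone
        rwa [h85ev_C, mul_one] at h
      · exact hrat y₀ hy₀
    | zero => exact h85InSpan_zero _ _
    | one => exact hone
    | add y z _ _ hy hz => exact h85InSpan_add hy hz
    | neg y _ hy => exact h85InSpan_neg hy
    | mul y z _ _ hy hz =>
      obtain ⟨c, rfl⟩ := hy
      obtain ⟨d, rfl⟩ := hz
      rw [Finset.sum_mul_sum]
      refine h85InSpan_sum _ _ fun s hs => h85InSpan_sum _ _ fun s' hs' => ?_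
      have h1 : h85ev M A (h85ratEmb M t) (c s) * h85ratEmb M s *
          (h85ev M A (h85ratEmb M t) (d s') * h85ratEmb M s') =
          h85ev M A (h85ratEmb M t) (c s * d s') * h85ratEmb M (s * s') := by
        rw [map_mul, map_mul]; ring
      rw [h1]
      exact h85InSpan_smul _
        (hrat _ (RingHom.IsIntegralElem.mul _ (hS₀int s hs) (hS₀int s' hs')))
  exact key x (H x hx)

end Fermat.Agent.Red.ModelO

namespace Fermat.Agent.Red.ModelO

open Fermat.Agent.S37

set_option linter.unusedSectionVars false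

/-- from the span indexed by rational functions to the span indexed by their images. -/
theorem h85InSpan_image {M : ℕ} [DecidableEq (FF M)] {A : ValuationSubring Kbar} {t : FF M}
    {S₀ : Finset (FQ M)} {x : FF M} (h : h85InSpan A t S₀ x) :
    ∃ c : FF M → Polynomial A, x = ∑ s ∈ S₀.image (h85ratEmb M), h85ev M A t (c s) * s := by
  obtain ⟨c₀, rfl⟩ := h
  refine ⟨fun s => open Classical in
    if h : ∃ s₀, h85ratEmb M s₀ = s then c₀ (Classical.choose h) else 0, ?_⟩
  rw [Finset.sum_image (fun a _ b _ hab => h85ratEmb_injective M hab)]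
  refine Finset.sum_congr rfl fun s₀ _ => ?_
  have hex : ∃ s₁, h85ratEmb M s₁ = h85ratEmb M s₀ := ⟨s₀, rfl⟩
  have h1 : Classical.choose hex = s₀ := h85ratEmb_injective M (Classical.choose_spec hex)
  simp only [dif_pos hex, h1]

/-- **BRIDGE** (statement): a rational function integral over `A[t]` is integral over
`ℤ_(ℓ)[t]`. -/
def h85Bridge (ℓ M : ℕ) (A : ValuationSubring Kbar) : Prop :=
  ∀ t y : FQ M, h85ratEmb M y ∈ modelAt M A (h85ratEmb M t) → (h85evQ ℓ M t).IsIntegralElem y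

/-- **FINITE, strong form**, from base change in the form of `IfaceBaseChange` and the
bridge. -/
theorem h85_modelAt_fg_of_bridge {ℓ M : ℕ} [NeZero M] [Fact ℓ.Prime]
    {A : ValuationSubring Kbar} (hA : A.LiesOverPrime ℓ) (t : FQ M)
    (ht : t = h85jQ M ∨ t = (h85jQ M)⁻¹) (hbr : h85Bridge ℓ M A)
    (hBC : modelAt M A (h85ratEmb M t) ≤ Subring.closure
      ((fun a : Kbar => cst M a) '' (A : Set Kbar) ∪
        {f | IsRat f ∧ f ∈ modelAt M A (h85ratEmb M t)})) :
    ∃ S : Finset (FF M), (∀ s ∈ S, s ∈ modelAt M A (h85ratEmb M t)) ∧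
      ∀ x ∈ modelAt M A (h85ratEmb M t), ∃ c : FF M → Polynomial A,
        x = ∑ s ∈ S, h85ev M A (h85ratEmb M t) (c s) * s := by
  classical
  have H : ∀ x ∈ modelAt M A (h85ratEmb M t), x ∈ Subring.closure
      ((fun a : Kbar => cst M a) '' (A : Set Kbar) ∪
        {f | ∃ y : FQ M, (h85evQ ℓ M t).IsIntegralElem y ∧ h85ratEmb M y = f}) := by
    intro x hx
    refine Subring.closure_mono ?_ (hBC hx)
    rintro f (hf | ⟨hrat, hmem⟩)
    · exact Or.inl hf
    · obtain ⟨y, rfl⟩ := h85_exists_ratEmb_of_isRat hrat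
      exact Or.inr ⟨y, hbr t y hmem, rfl⟩
  obtain ⟨S₀, -, hS₀mem, hS₀gen⟩ := h85_modelAt_fg hA t ht H
  refine ⟨S₀.image (h85ratEmb M), fun s hs => ?_, fun x hx => h85InSpan_image (hS₀gen x hx)⟩
  obtain ⟨s₀, hs₀, rfl⟩ := Finset.mem_image.mp hs
  exact hS₀mem s₀ hs₀

/-- **FINITE, strong form, finite chart** (the shape of `GG.IfaceFinite M A (jB M)` and of
`SM.CoreFin A (jB M)`). -/
theorem h85_modelFin_fg_of {ℓ M : ℕ} [NeZero M] (hℓ : ℓ.Prime) (hℓM : ¬ ℓ ∣ M)
    {A : ValuationSubring Kbar} (hA : A.LiesOverPrime ℓ) (hBC : IfaceBaseChange M)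
    (hbr : h85Bridge ℓ M A) :
    ∃ S : Finset (FF M), (∀ s ∈ S, s ∈ modelAt M A (jB M)) ∧
      ∀ x ∈ modelAt M A (jB M), ∃ c : FF M → Polynomial A,
        x = ∑ s ∈ S, h85ev M A (jB M) (c s) * s := by
  have : Fact ℓ.Prime := ⟨hℓ⟩
  have h := h85_modelAt_fg_of_bridge hA (h85jQ M) (Or.inl rfl) hbr
    (by rw [h85ratEmb_jQ]; exact (hBC ℓ hℓ hℓM A hA).1)
  rwa [h85ratEmb_jQ] at h

/-- **FINITE, strong form, chart at infinity** (the shape of `GG.IfaceFinite M A (jB M)⁻¹` and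
of `SM.CoreFin A (jB M)⁻¹`). -/
theorem h85_modelInf_fg_of {ℓ M : ℕ} [NeZero M] (hℓ : ℓ.Prime) (hℓM : ¬ ℓ ∣ M)
    {A : ValuationSubring Kbar} (hA : A.LiesOverPrime ℓ) (hBC : IfaceBaseChange M)
    (hbr : h85Bridge ℓ M A) :
    ∃ S : Finset (FF M), (∀ s ∈ S, s ∈ modelAt M A (jB M)⁻¹) ∧
      ∀ x ∈ modelAt M A (jB M)⁻¹, ∃ c : FF M → Polynomial A,
        x = ∑ s ∈ S, h85ev M A (jB M)⁻¹ (c s) * s := by
  have : Fact ℓ.Prime := ⟨hℓ⟩
  have h := h85_modelAt_fg_of_bridge hA (h85jQ M)⁻¹ (Or.inr rfl) hbr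
    (by rw [h85ratEmb_jQ_inv]; exact (hBC ℓ hℓ hℓM A hA).2)
  rwa [h85ratEmb_jQ_inv] at h

end Fermat.Agent.Red.ModelO
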