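import Mathlib

/-!
# P-RED / MODEL-O: finiteness of integral closures over `O[j]`

Mathlib-only.  `O` is a discrete valuation ring, `F` a field of characteristic zero which is an
`O`-algebra, `j : F` is transcendental over `O`, and `F` is spanned over `O(j)` by a finite
set `T` (in the application `T = {1, U, …, U^(I-1)}`, `U` the modular unit of S28, and `F` is any
field containing the modular function field and `U`).

* `exists_finset_span_of_isIntegralElem` : the elements of `F` integral over `O[j]` lie in the
  `O[j]`-span of a finite set of integral elements.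
* `exists_finset_span_of_addSubgroup` : every `O[j]`-submodule `M` of integral elements of `F`
  (for instance the integral closure of `O[j]` in a subfield of `F`) is generated over `O[j]` by a
  finite subset of `M` (noetherianity).

Everything is stated without instances: the `O[j]`-module structure is expressed through
`Polynomial.aeval j`.
-/

set_option autoImplicit false
set_option linter.style.haveILetI false

open Polynomial

namespace Fermat.Agent.Red.ModelO

section

variable {O F : Type*} [CommRing O] [IsDomain O] [IsDiscreteValuationRing O]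
  [Field F] [CharZero F] [Algebra O F]

/-- **FINITE (noetherian form).**  If `F` is spanned over `O(j)` by a finite set `T`, then the
integral closure of `O[j]` in `F` (for the algebra structure given by `aeval j`) is a noetherian
`O[j]`-module. -/
theorem isNoetherian_integralClosure_aeval (j : F)
    (hj : Function.Injective (aeval (R := O) j : O[X] → F))
    (T : Finset F)
    (hT : ∀ x : F, ∃ d : O[X], d ≠ 0 ∧ ∃ c : F → O[X],
      aeval j d * x = ∑ t ∈ T, aeval j (c t) * t) :
    letI : Algebra O[X] F := (aeval (R := O) j : O[X] →+* F).toAlgebra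
    IsNoetherian O[X] (integralClosure O[X] F) := by
  classical
  letI alg : Algebra O[X] F := (aeval (R := O) j : O[X] →+* F).toAlgebra
  have halg : ∀ y : O[X], algebraMap O[X] F y = aeval j y := fun _ => rfl
  haveI hfaith : FaithfulSMul O[X] F := (faithfulSMul_iff_algebraMap_injective _ _).mpr hj
  letI := FractionRing.liftAlgebra O[X] F
  haveI : IsScalarTower O[X] (FractionRing O[X]) F := FractionRing.isScalarTower_liftAlgebra _ _
  haveI : CharZero (FractionRing O[X]) := RingHom.charZero (algebraMap (FractionRing O[X]) F)
  haveI : FiniteDimensional (FractionRing O[X]) F := by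
    refine Module.finite_def.mpr ⟨T, eq_top_iff.mpr fun x _ => ?_⟩
    obtain ⟨d, hd, c, hc⟩ := hT x
    have hd' : aeval j d ≠ 0 := fun h => hd (hj (by rw [h, map_zero]))
    have hx : x = ∑ t ∈ T, ((algebraMap O[X] (FractionRing O[X]) (c t)) /
        (algebraMap O[X] (FractionRing O[X]) d)) • t := by
      have e : ∀ t, ((algebraMap O[X] (FractionRing O[X]) (c t)) /
          (algebraMap O[X] (FractionRing O[X]) d)) • t = (aeval j d)⁻¹ * (aeval j (c t) * t) := by
        intro t
        rw [Algebra.smul_def, map_div₀, ← IsScalarTower.algebraMap_apply,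
          ← IsScalarTower.algebraMap_apply, halg, halg]
        field_simp
      simp_rw [e]
      rw [← Finset.mul_sum, ← hc]
      field_simp
    rw [hx]
    exact Submodule.sum_mem _ fun t ht => Submodule.smul_mem _ _ (Submodule.subset_span ht)
  exact IsIntegralClosure.isNoetherian O[X] (FractionRing O[X]) F (integralClosure O[X] F)

/-- **FINITE (submodule form).**  Every additive subgroup `M` of `F` which consists of elements
integral over `O[j]` and is stable under multiplication by `O[j]` is generated over `O[j]` by a
finite subset of `M`. -/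
theorem exists_finset_span_of_addSubgroup (j : F)
    (hj : Function.Injective (aeval (R := O) j : O[X] → F))
    (T : Finset F)
    (hT : ∀ x : F, ∃ d : O[X], d ≠ 0 ∧ ∃ c : F → O[X],
      aeval j d * x = ∑ t ∈ T, aeval j (c t) * t)
    (M : AddSubgroup F)
    (hMint : ∀ x ∈ M, (aeval (R := O) j : O[X] →+* F).IsIntegralElem x)
    (hMsmul : ∀ (c : O[X]) (x : F), x ∈ M → aeval j c * x ∈ M) :
    ∃ S : Finset F, (∀ s ∈ S, s ∈ M) ∧
      ∀ x ∈ M, ∃ c : F → O[X], x = ∑ s ∈ S, aeval j (c s) * s := by
  classical
  letI alg : Algebra O[X] F := (aeval (R := O) j : O[X] →+* F).toAlgebra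
  have halg : ∀ y : O[X], algebraMap O[X] F y = aeval j y := fun _ => rfl
  haveI hnoeth : IsNoetherian O[X] (integralClosure O[X] F) :=
    isNoetherian_integralClosure_aeval j hj T hT
  -- `M` as a submodule of the integral closure
  let M' : Submodule O[X] (integralClosure O[X] F) :=
    { carrier := {x | (x : F) ∈ M}
      add_mem' := fun {a b} ha hb => M.add_mem ha hb
      zero_mem' := M.zero_mem
      smul_mem' := fun c x hx => by
        show ((c • x : integralClosure O[X] F) : F) ∈ M
        have : ((c • x : integralClosure O[X] F) : F) = aeval j c * (x : F) := by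
          rw [← halg, ← Algebra.smul_def]
          rfl
        rw [this]
        exact hMsmul c _ hx }
  obtain ⟨S', hS'⟩ := (isNoetherian_def.mp hnoeth) M'
  refine ⟨S'.image Subtype.val, ?_, fun x hx => ?_⟩
  · intro s hs
    obtain ⟨s', hs', rfl⟩ := Finset.mem_image.mp hs
    have : s' ∈ M' := hS' ▸ Submodule.subset_span hs'
    exact this
  · have hxmem : (⟨x, hMint x hx⟩ : integralClosure O[X] F) ∈ Submodule.span O[X] (S' : Set _) := by
      rw [hS']
      exact hx
    obtain ⟨c', -, hc'⟩ := (Submodule.mem_span_finset).mp hxmem
    have hval := congrArg (Subtype.val : integralClosure O[X] F → F) hc'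
    simp only [] at hval
    refine ⟨fun s => if h : IsIntegral O[X] s then c' ⟨s, h⟩ else 0, ?_⟩
    rw [Finset.sum_image (fun a _ b _ h => Subtype.ext h)]
    rw [← hval]
    simp only [AddSubmonoidClass.coe_finsetSum]
    refine Finset.sum_congr rfl fun s _ => ?_
    have hs : IsIntegral O[X] (s : F) := s.2
    rw [dif_pos hs]
    rfl

/-- **FINITE (element form).**  The elements of `F` integral over `O[j]` lie in the `O[j]`-span
of a finite set of integral elements. -/
theorem exists_finset_span_of_isIntegralElem (j : F)
    (hj : Function.Injective (aeval (R := O) j : O[X] → F))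
    (T : Finset F)
    (hT : ∀ x : F, ∃ d : O[X], d ≠ 0 ∧ ∃ c : F → O[X],
      aeval j d * x = ∑ t ∈ T, aeval j (c t) * t) :
    ∃ S : Finset F, (∀ s ∈ S, (aeval (R := O) j : O[X] →+* F).IsIntegralElem s) ∧
      ∀ x : F, (aeval (R := O) j : O[X] →+* F).IsIntegralElem x →
        ∃ c : F → O[X], x = ∑ s ∈ S, aeval j (c s) * s := by
  classical
  letI alg : Algebra O[X] F := (aeval (R := O) j : O[X] →+* F).toAlgebra
  have halg : ∀ y : O[X], algebraMap O[X] F y = aeval j y := fun _ => rfl
  let M : AddSubgroup F := (integralClosure O[X] F).toSubring.toAddSubgroup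
  have hM : ∀ x, x ∈ M ↔ IsIntegral O[X] x := fun x => Iff.rfl
  exact exists_finset_span_of_addSubgroup j hj T hT M (fun x hx => hx)
    (fun c x hx => (hM _).mpr (by
      have h1 : IsIntegral O[X] (algebraMap O[X] F c) := isIntegral_algebraMap
      exact h1.mul hx))

end

end Fermat.Agent.Red.ModelO
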