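import Mathlib

/-!
# P-RED / R-MODEL: finiteness of integral closures over `O[j]`, `O` integrally closed

Mathlib-only.  `O` is an integrally closed domain (for instance a valuation ring, **not**
necessarily noetherian), `F` a field of characteristic zero, `φ : O →+* F`, `j : F` transcendental
over `O`, and `F` is spanned by a finite set `T` over a set `E₀` of elements of the subfield
generated by `φ(O)` and `j`.

* `h85_exists_finset_span_of_isIntegralElem` : the elements of `F` integral over `O[j]` lie in
  the `O[j]`-span of a finite subset `S` of `F` (trace dual basis).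
-/

set_option autoImplicit false
set_option linter.style.haveILetI false

open Polynomial

namespace Fermat.Agent.Red.ModelO

/-- **FINITE (span form).**  The elements of `F` integral over `O[j]` lie in the `O[j]`-span of
a finite subset of `F`. -/
theorem h85_exists_finset_span_of_isIntegralElem {O F : Type*} [CommRing O] [IsDomain O]
    [IsIntegrallyClosed O] [Field F] [CharZero F] (φ : O →+* F) (j : F)
    (hj : Function.Injective (eval₂RingHom φ j))
    (E₀ : Set F) (hE₀ : E₀ ⊆ Subfield.closure (Set.range (eval₂RingHom φ j)))
    (T : Finset F) (hT : ∀ x : F, ∃ c : F → F, (∀ t, c t ∈ E₀) ∧ x = ∑ t ∈ T, c t * t) :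
    ∃ S : Finset F, ∀ x : F, (eval₂RingHom φ j).IsIntegralElem x →
      ∃ c : F → O[X], x = ∑ s ∈ S, eval₂RingHom φ j (c s) * s := by
  classical
  letI alg : Algebra O[X] F := (eval₂RingHom φ j).toAlgebra
  have halg : ∀ y : O[X], algebraMap O[X] F y = eval₂RingHom φ j y := fun _ => rfl
  haveI hfaith : FaithfulSMul O[X] F := (faithfulSMul_iff_algebraMap_injective _ _).mpr hj
  letI := FractionRing.liftAlgebra O[X] F
  haveI : IsScalarTower O[X] (FractionRing O[X]) F := FractionRing.isScalarTower_liftAlgebra _ _
  haveI : CharZero (FractionRing O[X]) := RingHom.charZero (algebraMap (FractionRing O[X]) F)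
  -- the subfield generated by `O[j]` is the image of the fraction field
  have hrange : ∀ y ∈ Subfield.closure (Set.range (eval₂RingHom φ j)),
      ∃ e : FractionRing O[X], algebraMap (FractionRing O[X]) F e = y := by
    have hle : Subfield.closure (Set.range (eval₂RingHom φ j)) ≤
        (algebraMap (FractionRing O[X]) F).fieldRange := by
      rw [Subfield.closure_le]
      rintro _ ⟨P, rfl⟩
      exact ⟨algebraMap O[X] (FractionRing O[X]) P,
        (IsScalarTower.algebraMap_apply O[X] (FractionRing O[X]) F P).symm⟩
    intro y hy
    exact hle hy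
  haveI : FiniteDimensional (FractionRing O[X]) F := by
    refine Module.finite_def.mpr ⟨T, eq_top_iff.mpr fun x _ => ?_⟩
    obtain ⟨c, hc, hx⟩ := hT x
    rw [hx]
    refine Submodule.sum_mem _ fun t ht => ?_
    obtain ⟨e, he⟩ := hrange _ (hE₀ (hc t))
    rw [← he, ← Algebra.smul_def]
    exact Submodule.smul_mem _ _ (Submodule.subset_span ht)
  obtain ⟨s, b, hb⟩ := FiniteDimensional.exists_is_basis_integral O[X] (FractionRing O[X]) F
  have hle := integralClosure_le_span_dualBasis (A := O[X]) (K := FractionRing O[X]) (L := F)
    b hb
  refine ⟨Finset.univ.image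
    ((Algebra.traceForm (FractionRing O[X]) F).dualBasis
      (traceForm_nondegenerate (FractionRing O[X]) F) b), fun x hx => ?_⟩
  have hx' : x ∈ Subalgebra.toSubmodule (integralClosure O[X] F) := hx
  have hmem := hle hx'
  have hset : Set.range ((Algebra.traceForm (FractionRing O[X]) F).dualBasis
      (traceForm_nondegenerate (FractionRing O[X]) F) b) =
      ((Finset.univ.image ((Algebra.traceForm (FractionRing O[X]) F).dualBasis
        (traceForm_nondegenerate (FractionRing O[X]) F) b) : Finset F) : Set F) := by
    rw [Finset.coe_image, Finset.coe_univ, Set.image_univ]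
  rw [hset] at hmem
  obtain ⟨c, -, hc⟩ := (Submodule.mem_span_finset).mp hmem
  refine ⟨c, ?_⟩
  rw [← hc]
  refine Finset.sum_congr rfl fun t _ => ?_
  rw [Algebra.smul_def, halg]

end Fermat.Agent.Red.ModelO
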