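import Fermat.Agent.Red.ModelO.ValCrit
import Fermat.Agent.Red.ModelO.FiniteVal
import Fermat.Agent.S24.DegLe

/-!
# P-RED / R-MODEL: FINITE for the finite chart of the normal model over `A`

`h85_modelFin_finite` : there is a finite subset `S` of `FF M` such that every element of
`modelFin M A` is an `A[j]`-combination of `S`.  No noetherian hypothesis on `A`.
-/

set_option autoImplicit false

open Polynomial IntermediateField

noncomputable section

namespace Fermat.Agent.Red.ModelO

open Fermat.Agent.S37

variable (M : ℕ) [NeZero M] (A : ValuationSubring Kbar)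

omit [NeZero M] in
theorem h85ev_eq_aeval (t : FF M) (P : Polynomial A) :
    h85ev M A t P = aeval t (P.map (algebraMap A Kbar)) := by
  rw [aeval_def, eval₂_map]
  rfl

theorem h85ev_jB_injective : Function.Injective (h85ev M A (jB M)) := by
  rw [injective_iff_map_eq_zero]
  intro P hP
  rw [h85ev_eq_aeval] at hP
  have h1 := (transcendental_iff_injective.mp (Fermat.Agent.S24.transcendental_jBar M))
  have h2 : P.map (algebraMap A Kbar) = 0 := h1 (hP.trans (map_zero _).symm)
  exact Polynomial.map_injective _ (FaithfulSMul.algebraMap_injective A Kbar)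
    (h2.trans (Polynomial.map_zero _).symm)

omit [NeZero M] in
theorem h85_cst_mem_closure (t : FF M) (a : Kbar) :
    cst M a ∈ Subfield.closure (Set.range (h85ev M A t)) := by
  rcases A.mem_or_inv_mem a with ha | ha
  · exact Subfield.subset_closure ⟨C ⟨a, ha⟩, h85ev_C M A t _⟩
  · have h1 : cst M a⁻¹ ∈ Subfield.closure (Set.range (h85ev M A t)) :=
      Subfield.subset_closure ⟨C ⟨a⁻¹, ha⟩, h85ev_C M A t _⟩
    have h2 := inv_mem h1
    rwa [← map_inv₀, inv_inv] at h2

theorem h85_adjoin_le_closure :
    ((Kbar⟮jB M⟯ : IntermediateField Kbar (FF M)) : Set (FF M)) ⊆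
      Subfield.closure (Set.range (h85ev M A (jB M))) := by
  have h : Kbar⟮jB M⟯ ≤ (Subfield.closure (Set.range (h85ev M A (jB M)))).toIntermediateField
      (fun a => h85_cst_mem_closure M A (jB M) a) := by
    rw [IntermediateField.adjoin_le_iff]
    intro x hx
    rw [Set.mem_singleton_iff] at hx
    subst hx
    exact Subfield.subset_closure ⟨X, h85ev_X M A _⟩
  exact fun x hx => h hx

/-- **FINITE.**  The finite chart is contained in the `A[j]`-span of a finite subset of `FF M`. -/
theorem h85_modelFin_finite :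
    ∃ S : Finset (FF M), ∀ x ∈ modelFin M A,
      ∃ c : FF M → Polynomial A, x = ∑ s ∈ S, h85ev M A (jB M) (c s) * s := by
  classical
  have hfd : FiniteDimensional Kbar⟮jB M⟯ (FF M) := (Fermat.Agent.S24.finrank_le_index M).1
  obtain ⟨T, hT⟩ := (Module.finite_def.mp hfd)
  have hspan : ∀ x : FF M, ∃ c : FF M → FF M,
      (∀ t, c t ∈ ((Kbar⟮jB M⟯ : IntermediateField Kbar (FF M)) : Set (FF M))) ∧
        x = ∑ t ∈ T, c t * t := by
    intro x
    have hx : x ∈ Submodule.span Kbar⟮jB M⟯ (T : Set (FF M)) := by rw [hT]; trivial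
    obtain ⟨c, -, hc⟩ := (Submodule.mem_span_finset).mp hx
    refine ⟨fun t => (c t : FF M), fun t => (c t).2, ?_⟩
    rw [← hc]
    refine Finset.sum_congr rfl fun t _ => ?_
    rw [Algebra.smul_def]
    rfl
  obtain ⟨S, hS⟩ := h85_exists_finset_span_of_isIntegralElem (h85cstHom M A) (jB M)
    (h85ev_jB_injective M A) _ (h85_adjoin_le_closure M A) T hspan
  exact ⟨S, fun x hx => hS x ((h85_mem_modelAt_iff_isIntegralElem M A _ _).1 hx)⟩

end Fermat.Agent.Red.ModelO
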