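import Mathlib

/-!
# P-RED / R-MODEL: finiteness of integral closures over `O[t]`, `O` noetherian integrally closed

Mathlib-only, ring-homomorphism form.  `O` is a noetherian integrally closed domain, `F` a field
of characteristic zero, `φ : O →+* F`, `t : F` transcendental over `O`, and `F` is spanned by a
finite set `T` over a set `E₀` of elements of the subfield generated by `φ(O)` and `t`.

* `h85_exists_finset_gen_of_noetherian` : the integral closure of `O[t]` in `F` is generated, as
  an `O[t]`-module, by a finite set `S` of integral elements.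
-/

set_option autoImplicit false
set_option linter.style.haveILetI false

open Polynomial

namespace Fermat.Agent.Red.ModelO

/-- **FINITE (noetherian base).**  The integral closure of `O[t]` in `F` is a finitely generated
`O[t]`-module. -/
theorem h85_exists_finset_gen_of_noetherian {O F : Type*} [CommRing O] [IsDomain O]
    [IsIntegrallyClosed O] [IsNoetherianRing O] [Field F] [CharZero F] (φ : O →+* F) (t : F)
    (ht : Function.Injective (eval₂RingHom φ t))
    (E₀ : Set F) (hE₀ : E₀ ⊆ Subfield.closure (Set.range (eval₂RingHom φ t)))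
    (T : Finset F) (hT : ∀ x : F, ∃ c : F → F, (∀ u, c u ∈ E₀) ∧ x = ∑ u ∈ T, c u * u) :
    ∃ S : Finset F, (∀ s ∈ S, (eval₂RingHom φ t).IsIntegralElem s) ∧
      ∀ x : F, (eval₂RingHom φ t).IsIntegralElem x →
        ∃ c : F → O[X], x = ∑ s ∈ S, eval₂RingHom φ t (c s) * s := by
  classical
  letI alg : Algebra O[X] F := (eval₂RingHom φ t).toAlgebra
  have halg : ∀ y : O[X], algebraMap O[X] F y = eval₂RingHom φ t y := fun _ => rfl
  haveI hfaith : FaithfulSMul O[X] F := (faithfulSMul_iff_algebraMap_injective _ _).mpr ht
  letI := FractionRing.liftAlgebra O[X] F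
  haveI : IsScalarTower O[X] (FractionRing O[X]) F := FractionRing.isScalarTower_liftAlgebra _ _
  haveI : CharZero (FractionRing O[X]) := RingHom.charZero (algebraMap (FractionRing O[X]) F)
  have hrange : ∀ y ∈ Subfield.closure (Set.range (eval₂RingHom φ t)),
      ∃ e : FractionRing O[X], algebraMap (FractionRing O[X]) F e = y := by
    have hle : Subfield.closure (Set.range (eval₂RingHom φ t)) ≤
        (algebraMap (FractionRing O[X]) F).fieldRange := by
      rw [Subfield.closure_le]
      rintro _ ⟨P, rfl⟩
      exact ⟨algebraMap O[X] (FractionRing O[X]) P,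
        (IsScalarTower.algebraMap_apply O[X] (FractionRing O[X]) F P).symm⟩
    intro y hy
    exact hle hy
  haveI : FiniteDimensional (FractionRing O[X]) F := by
    refine Module.finite_def.mpr ⟨T, eq_top_iff.mpr fun x _ => ?_⟩
    obtain ⟨c, hc, hx⟩ := hT x
    rw [hx]
    refine Submodule.sum_mem _ fun u hu => ?_
    obtain ⟨e, he⟩ := hrange _ (hE₀ (hc u))
    rw [← he, ← Algebra.smul_def]
    exact Submodule.smul_mem _ _ (Submodule.subset_span hu)
  haveI hnoeth : IsNoetherian O[X] (integralClosure O[X] F) :=
    IsIntegralClosure.isNoetherian O[X] (FractionRing O[X]) F (integralClosure O[X] F)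
  obtain ⟨S', hS'⟩ := (isNoetherian_def.mp hnoeth) ⊤
  refine ⟨S'.image Subtype.val, ?_, fun x hx => ?_⟩
  · intro s hs
    obtain ⟨s', -, rfl⟩ := Finset.mem_image.mp hs
    exact s'.2
  · have hxmem : (⟨x, hx⟩ : integralClosure O[X] F) ∈ Submodule.span O[X] (S' : Set _) := by
      rw [hS']
      trivial
    obtain ⟨c', -, hc'⟩ := (Submodule.mem_span_finset).mp hxmem
    have hval := congrArg (Subtype.val : integralClosure O[X] F → F) hc'
    simp only [] at hval
    refine ⟨fun s => if h : IsIntegral O[X] s then c' ⟨s, h⟩ else 0, ?_⟩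
    rw [Finset.sum_image (fun a _ b _ h => Subtype.ext h)]
    rw [← hval]
    simp only [AddSubmonoidClass.coe_finsetSum]
    refine Finset.sum_congr rfl fun s _ => ?_
    have hs : IsIntegral O[X] (s : F) := s.2
    rw [dif_pos hs]
    rfl

end Fermat.Agent.Red.ModelO
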