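import Fermat.Agent.Red.ModelO.RatDefs
import Fermat.Agent.Bridge.Main

/-!
# P-RED / R-MODEL: rational functions integral over `A[t]` are integral over `ℤ_(ℓ)[t]`

`h49_bridge` : a rational function `y ∈ F_ℚ` whose base change is integral over `A[t]`
(`A` a valuation subring of `ℚ̄` over `ℓ`, `t` rational) is integral over `ℤ_(ℓ)[t]`.

Proof: valuative criterion on both sides, extension of valuation subrings of `F_ℚ` to
`F_{ℚ̄}` (domination), conjugacy of the valuation subrings of `ℚ̄` over `ℓ`.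
-/

set_option autoImplicit false

open Polynomial ModularCurve

noncomputable section

namespace Fermat.Agent.Red.ModelO

open Fermat.Agent.S37

open scoped Pointwise

/-- a valuation subring of `ℚ̄` containing `ℤ_(ℓ)` and `1/ℓ` is everything. -/
theorem h49_eq_top_of_inv_mem (ℓ : ℕ) (hℓ : ℓ.Prime) (B : ValuationSubring Kbar)
    (hZ : ∀ r : GaloisRep.ratLocalizedAt ℓ, algebraMap ℚ Kbar (r : ℚ) ∈ B)
    (hinv : ((ℓ : Kbar))⁻¹ ∈ B) (a : Kbar) : a ∈ B := by
  -- inverses of natural numbers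
  have hnat : ∀ n : ℕ, ((n : Kbar))⁻¹ ∈ B := by
    intro n
    induction n using Nat.recOnMul with
    | zero => simp
    | one => simp
    | prime p hp =>
      by_cases hpl : p = ℓ
      · rw [hpl]; exact hinv
      · have hmem : ((p : ℚ))⁻¹ ∈ GaloisRep.ratLocalizedAt ℓ := by
          show ((p : ℚ))⁻¹.den.Coprime ℓ
          rw [Rat.inv_natCast_den_of_pos hp.pos]
          exact (Nat.coprime_primes hp hℓ).2 hpl
        have := hZ ⟨_, hmem⟩
        simpa using this
    | mul a b ha hb =>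
      have : ((a * b : ℕ) : Kbar)⁻¹ = ((a : Kbar))⁻¹ * ((b : Kbar))⁻¹ := by
        push_cast; rw [mul_inv]
      rw [this]
      exact B.mul_mem _ _ ha hb
  -- all rationals
  have hrat : ∀ r : ℚ, algebraMap ℚ Kbar r ∈ B := by
    intro r
    have h1 : algebraMap ℚ Kbar r = (r.num : Kbar) * ((r.den : Kbar))⁻¹ := by
      conv_lhs => rw [← Rat.num_div_den r]
      rw [map_div₀, div_eq_mul_inv]
      simp
    rw [h1]
    exact B.mul_mem _ _ (intCast_mem B r.num) (hnat _)
  -- integral closure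
  have hint : IsIntegral ℚ a := ((AlgebraicClosure.isAlgebraic ℚ).isAlgebraic a).isIntegral
  obtain ⟨p, hp, hroot⟩ := hint
  have hintB : IsIntegral B a := by
    let f : ℚ →+* B := (algebraMap ℚ Kbar).codRestrict B hrat
    refine ⟨p.map f, hp.map f, ?_⟩
    rw [Polynomial.eval₂_map]
    exact hroot
  obtain ⟨b, hb⟩ := IsIntegrallyClosed.isIntegral_iff.mp hintB
  rw [← hb]
  exact b.2

theorem h49_bridge (M ℓ : ℕ) [NeZero M] (hℓ : ℓ.Prime) (A : ValuationSubring Kbar)
    (hA : A.LiesOverPrime ℓ) (t y : FQ M)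
    (hy : h85ratEmb M y ∈ modelAt M A (h85ratEmb M t)) :
    (h85evQ ℓ M t).IsIntegralElem y := by
  unfold h85evQ
  rw [h85_isIntegralElem_iff_forall]
  intro W hW ht
  obtain ⟨W', hle, hloc⟩ := (W.toLocalSubring.map (h85ratEmb M)).exists_le_valuationSubring
  have hιW : ∀ x ∈ W, h85ratEmb M x ∈ W' := fun x hx => hle ⟨x, hx, rfl⟩
  -- the constants of `ℤ_(ℓ)` lie in `A'`
  set A' : ValuationSubring Kbar := W'.comap (algebraMap Kbar (FF M)) with hA'def
  have hZ : ∀ r : GaloisRep.ratLocalizedAt ℓ, algebraMap ℚ Kbar (r : ℚ) ∈ A' := by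
    intro r
    rw [hA'def, ValuationSubring.mem_comap]
    have h1 := hιW _ (hW r)
    rwa [h85zlHom_apply, h85ratEmb_algebraMap] at h1
  -- CLAIM: `ι y ∈ W'`
  have hyW' : h85ratEmb M y ∈ W' := by
    rw [h85_mem_modelAt_iff_forall] at hy
    by_cases hcase : (ℓ : Kbar) ∈ A'.nonunits
    · -- `A'` lies over `ℓ`: conjugate
      have hA' : A'.LiesOverPrime ℓ := hcase
      obtain ⟨σ, hσ⟩ := Fermat.Agent.Bridge.exists_smul_eq_of_liesOverPrime hℓ hA hA'
      have key : h85ratEmb M y ∈ ((gal M σ)⁻¹ • W' : ValuationSubring (FF M)) := by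
        refine hy _ ?_ ?_
        · intro a ha
          rw [ValuationSubring.mem_pointwise_smul_iff_inv_smul_mem, inv_inv,
            GalI.gal_smul_cst]
          have h1 : σ a ∈ A' := by
            rw [← hσ]
            exact ValuationSubring.smul_mem_pointwise_smul σ a A ha
          exact h1
        · rw [ValuationSubring.mem_pointwise_smul_iff_inv_smul_mem, inv_inv,
            h85_gal_smul_ratEmb]
          exact hιW t ht
      rw [ValuationSubring.mem_pointwise_smul_iff_inv_smul_mem, inv_inv,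
        h85_gal_smul_ratEmb] at key
      exact key
    · -- `ℓ` is a unit of `A'`: `A' = ⊤`
      have hℓ0 : (ℓ : Kbar) ≠ 0 := by
        exact_mod_cast hℓ.ne_zero
      have hinv : ((ℓ : Kbar))⁻¹ ∈ A' := by
        by_contra h
        exact hcase ((GalI.mem_nonunits_iff_inv A' hℓ0).2 h)
      refine hy W' (fun a _ => ?_) (hιW t ht)
      exact h49_eq_top_of_inv_mem ℓ hℓ A' hZ hinv a
  -- conclusion
  by_contra hyW
  have hy0 : y ≠ 0 := fun h => hyW (h ▸ W.zero_mem)
  have hinvW : y⁻¹ ∈ W := (W.mem_or_inv_mem y).resolve_left hyW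
  let a : (W.toLocalSubring.map (h85ratEmb M)).toSubring := ⟨h85ratEmb M y⁻¹, y⁻¹, hinvW, rfl⟩
  have hunit : IsUnit (Subring.inclusion hle a) := by
    refine isUnit_iff_exists_inv.mpr ⟨⟨h85ratEmb M y, hyW'⟩, Subtype.ext ?_⟩
    show h85ratEmb M y⁻¹ * h85ratEmb M y = 1
    rw [← map_mul, inv_mul_cancel₀ hy0, map_one]
  have ha : IsUnit a := hloc.map_nonunit a hunit
  obtain ⟨⟨b, w, hw, rfl⟩, hb⟩ := isUnit_iff_exists_inv.mp ha
  have h1 : h85ratEmb M y⁻¹ * h85ratEmb M w = 1 := congrArg Subtype.val hb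
  rw [← map_mul] at h1
  have h2 : y⁻¹ * w = 1 := h85ratEmb_injective M (by rw [h1, map_one])
  have h3 : w = y := by
    have := congrArg (fun z => y * z) h2
    simpa [← mul_assoc, mul_inv_cancel₀ hy0] using this
  exact hyW (h3 ▸ hw)

end Fermat.Agent.Red.ModelO
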