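import Fermat.Agent.Red.ModelO.Mid
import Fermat.Agent.Red.ModelO.ValCrit
import Fermat.Agent.Red.GV.BarGalois
import Fermat.Agent.Red.GateCore2

/-!
# P-RED / R-MODEL: the package for the abstract gate (helper69, second seat of helper85)

Instantiation of the abstract gate `Fermat.Agent.Red.h26_gate_core` at

* `O := A` (a valuation subring of `ℚ̄` over `ℓ`), `F := FF M` (`ℓ ∤ M`),
* `π := c ∈ 𝔪_A`, `c ≠ 0`, `p := r` a prime `≠ ℓ`,
* `V := GV.gaussV A M`,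
* `B₀ := modelFin M A`, `B∞ := modelInf M A`, `Bm := h85modelMid M A`.

All hypotheses of the gate are discharged except the three geometric ones (`hbdd`, `e₀`,
`e∞`), which are stated without any instance (constants via `cst M c`).

Main results:

* `h69_gate_inst` : the conclusion of the abstract gate for the concrete charts;
* `h69_root_of_overlap` : the conclusion adapter (`t ^ r / w ∈ B₀ ∩ B∞ ⇒ w` is an `r`-th power);
* `h69_gate_of` : `w ≡ 1 mod c V` + `hbdd` + `e₀` + `e∞` `⇒ ∃ h, h ^ r = w`;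
* `h69_exists_of_congOne`, `h69_U_mono` : `CongOne A w` gives `w ∈ 1 + c V`, and `1 + c V`
  grows with `|c|`.
-/

set_option autoImplicit false

open ModularCurve AlgebraicCurve

noncomputable section

namespace Fermat.Agent.Red.ModelO

open Fermat.Agent.S28 Fermat.Agent.S37 Fermat.Agent.Red Fermat.Agent.Red.GV

variable (M : ℕ) [NeZero M] (A : ValuationSubring Kbar)

/-! ### The charts as subalgebras over `A` -/

omit [NeZero M] in
set_option synthInstance.maxHeartbeats 400000 in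
/-- the canonical `A`-algebra structure of `FF M` has `algebraMap a = cst M a`. -/
theorem h69_algebraMap_eq (a : A) : algebraMap (↥A) (FF M) a = cst M (a : Kbar) := rfl

set_option synthInstance.maxHeartbeats 400000 in
/-- the finite chart as a subalgebra. -/
def h69B0 : Subalgebra (↥A) (FF M) :=
  { modelFin M A with
    algebraMap_mem' := fun a => h85_cst_mem_modelAt M A (jB M) a.2 }

set_option synthInstance.maxHeartbeats 400000 in
/-- the chart at infinity as a subalgebra. -/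
def h69Binf : Subalgebra (↥A) (FF M) :=
  { modelInf M A with
    algebraMap_mem' := fun a => h85_cst_mem_modelAt M A (jB M)⁻¹ a.2 }

set_option synthInstance.maxHeartbeats 400000 in
/-- the middle chart as a subalgebra. -/
def h69Bm : Subalgebra (↥A) (FF M) :=
  { h85modelMid M A with
    algebraMap_mem' := fun a =>
      h85_modelFin_le_modelMid M A (h85_cst_mem_modelAt M A (jB M) a.2) }

set_option synthInstance.maxHeartbeats 400000 in
theorem h69_mem_B0 {x : FF M} : x ∈ h69B0 M A ↔ x ∈ modelFin M A := Iff.rfl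

set_option synthInstance.maxHeartbeats 400000 in
theorem h69_mem_Binf {x : FF M} : x ∈ h69Binf M A ↔ x ∈ modelInf M A := Iff.rfl

set_option synthInstance.maxHeartbeats 400000 in
theorem h69_mem_Bm {x : FF M} : x ∈ h69Bm M A ↔ x ∈ h85modelMid M A := Iff.rfl

set_option synthInstance.maxHeartbeats 400000 in
theorem h69_B0_le_Bm : h69B0 M A ≤ h69Bm M A :=
  fun _ hx => h85_modelFin_le_modelMid M A hx

set_option synthInstance.maxHeartbeats 400000 in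
theorem h69_Binf_le_Bm : h69Binf M A ≤ h69Bm M A :=
  fun _ hx => h85_modelInf_le_modelMid M A hx

set_option synthInstance.maxHeartbeats 400000 in
theorem h69_root0 {r : ℕ} (hr : r ≠ 0) : ∀ x : FF M, x ^ r ∈ h69B0 M A → x ∈ h69B0 M A :=
  fun _ hx => h85_modelAt_root_closed M A (jB M) hr hx

set_option synthInstance.maxHeartbeats 400000 in
theorem h69_rootinf {r : ℕ} (hr : r ≠ 0) :
    ∀ x : FF M, x ^ r ∈ h69Binf M A → x ∈ h69Binf M A :=
  fun _ hx => h85_modelAt_root_closed M A (jB M)⁻¹ hr hx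

set_option synthInstance.maxHeartbeats 400000 in
theorem h69_rootm {r : ℕ} (hr : r ≠ 0) : ∀ x : FF M, x ^ r ∈ h69Bm M A → x ∈ h69Bm M A :=
  fun _ hx => h85_modelMid_root_closed M A hr hx

/-! ### Units of `A` -/

/-- a prime `r ≠ ℓ` is a unit of a valuation ring over `ℓ`. -/
theorem h69_isUnit_natCast {ℓ : ℕ} (hℓ : ℓ.Prime) (hA : A.LiesOverPrime ℓ) {r : ℕ}
    (hr : r.Prime) (hrℓ : r ≠ ℓ) : IsUnit ((r : ℕ) : ↥A) := by
  rw [← IsLocalRing.notMem_maximalIdeal]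
  intro hmem
  have hℓmem : ((ℓ : ℕ) : ↥A) ∈ IsLocalRing.maximalIdeal (↥A) := by
    rw [← ValuationSubring.coe_mem_nonunits_iff]
    exact hA
  have hcop : IsCoprime (r : ℤ) (ℓ : ℤ) :=
    Nat.isCoprime_iff_coprime.2 ((Nat.coprime_primes hr hℓ).2 hrℓ)
  obtain ⟨u, v, huv⟩ := hcop
  have h1 : ((u : ↥A) * ((r : ℕ) : ↥A) + (v : ↥A) * ((ℓ : ℕ) : ↥A)) = 1 := by
    have := congrArg (fun z : ℤ => (z : ↥A)) huv
    simpa using this
  have h2 : (1 : ↥A) ∈ IsLocalRing.maximalIdeal (↥A) := by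
    rw [← h1]
    exact Ideal.add_mem _ (Ideal.mul_mem_left _ _ hmem) (Ideal.mul_mem_left _ _ hℓmem)
  exact (IsLocalRing.maximalIdeal.isMaximal (↥A)).ne_top
    ((Ideal.eq_top_iff_one _).2 h2)

/-! ### The set `1 + c V` -/

omit [NeZero M] in
set_option synthInstance.maxHeartbeats 400000 in
theorem h69_mem_U {c : Kbar} (hc : c ∈ A) {x : FF M} :
    x ∈ h26U (⟨c, hc⟩ : ↥A) (gaussV A M) ↔ ∃ v ∈ gaussV A M, x = 1 + cst M c * v :=
  Iff.rfl

/-- `CongOne A w` gives a nonzero `c ∈ 𝔪_A` with `w ∈ 1 + c V`. -/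
theorem h69_exists_of_congOne {ℓ : ℕ} (hℓ : ℓ.Prime) (hM : ¬ ℓ ∣ M) (hA : A.LiesOverPrime ℓ)
    (w : FF M) (hw : CongOne A w) :
    ∃ c : Kbar, c ≠ 0 ∧ c ∈ A.nonunits ∧ ∃ v ∈ gaussV A M, w = 1 + cst M c * v := by
  obtain ⟨c, x, hc0, hc, hx, hwx⟩ := exists_sub_one_eq_of_congOne A M hℓ hM hA w hw
  exact ⟨c, hc0, hc, x, hx, by rw [← hwx]; ring⟩

omit [NeZero M] in
/-- `1 + c V ⊆ 1 + c' V` if `c = c' a` with `a ∈ A`. -/
theorem h69_U_mono {c c' a : Kbar} (ha : a ∈ A) (hcc : c = c' * a) {x : FF M}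
    (hx : ∃ v ∈ gaussV A M, x = 1 + cst M c * v) :
    ∃ v ∈ gaussV A M, x = 1 + cst M c' * v := by
  obtain ⟨v, hv, rfl⟩ := hx
  refine ⟨cst M a * v, (gaussV A M).mul_mem
    (algebraMap_mem_gaussSubring A (IsLocalRing.residue A) M ⟨a, ha⟩) hv, ?_⟩
  have h1 : cst M (c' * a) = cst M c' * cst M a := map_mul (algebraMap Kbar (FF M)) c' a
  rw [hcc, h1]
  ring

/-! ### The gate for the concrete charts -/

set_option synthInstance.maxHeartbeats 400000 in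
set_option maxHeartbeats 1600000 in
/-- **The abstract gate at the charts of the normal model**, with the torsion bound in the
submodule form of `h26_gate_core` (canonical `A`-algebra structure on `FF M`). -/
theorem h69_gate_core {ℓ : ℕ} (hℓ : ℓ.Prime) (hM : ¬ ℓ ∣ M) (hA : A.LiesOverPrime ℓ)
    {r : ℕ} (hr : r.Prime) (hrℓ : r ≠ ℓ)
    (c : Kbar) (hc0 : c ≠ 0) (hc : c ∈ A.nonunits)
    (w : FF M) (hw : ∃ v ∈ gaussV A M, w = 1 + cst M c * v)
    (hbdd : ∃ k : ℕ, ∀ f ∈ h26L (h69Bm M A) w r hr.pos (h69_rootm M A hr.ne_zero),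
      (∃ n : ℕ, ((⟨c, Asm.mem_of_mem_nonunits A c hc⟩ : ↥A) ^ n) • f ∈
        h26L (h69B0 M A) w r hr.pos (h69_root0 M A hr.ne_zero) ⊔
          h26L (h69Binf M A) w r hr.pos (h69_rootinf M A hr.ne_zero)) →
      ((⟨c, Asm.mem_of_mem_nonunits A c hc⟩ : ↥A) ^ k) • f ∈
        h26L (h69B0 M A) w r hr.pos (h69_root0 M A hr.ne_zero) ⊔
          h26L (h69Binf M A) w r hr.pos (h69_rootinf M A hr.ne_zero))
    (e₀ : FF M) (he₀ : e₀ ^ r * w⁻¹ ∈ modelFin M A)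
    (he₀U : ∃ v ∈ gaussV A M, e₀ = 1 + cst M c * v)
    (einf : FF M) (heinf : einf ^ r * w⁻¹ ∈ modelInf M A)
    (heinfU : ∃ v ∈ gaussV A M, einf = 1 + cst M c * v) :
    ∃ t : FF M, t ≠ 0 ∧ t ^ r * w⁻¹ ∈ modelFin M A ∧ t ^ r * w⁻¹ ∈ modelInf M A := by
  have hcA : c ∈ A := Asm.mem_of_mem_nonunits A c hc
  have hr0 : r ≠ 0 := hr.ne_zero
  refine h26_gate_core (O := ↥A) (F := FF M) (⟨c, hcA⟩ : ↥A) r hr.pos
    (h69_isUnit_natCast A hℓ hA hr hrℓ) (gaussV A M)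
    (algebraMap_mem_gaussSubring A (IsLocalRing.residue A) M ⟨c, hcA⟩)
    (fun x hx => (one_add_cst_mul_inv_mem_gaussV A M hℓ hM hA c hc x hx).2)
    (fun x hx h1 => ?_)
    (h69B0 M A) (h69Binf M A) (h69Bm M A) (h69_B0_le_Bm M A) (h69_Binf_le_Bm M A)
    (fun x hx => modelFin_le_gaussV A M hℓ hM hA hx)
    (fun x hx => modelInf_le_gaussV A M hℓ hM hA hx)
    (h69_root0 M A hr0) (h69_rootinf M A hr0) (h69_rootm M A hr0)
    (fun x hx h1 => mem_modelFin_of_cst_mul A M hℓ hM hA x hx c hcA hc0 h1)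
    (fun x hx h1 => mem_modelInf_of_cst_mul A M hℓ hM hA x hx c hcA hc0 h1)
    (fun x hx h1 => h85_modelMid_qep M A (gaussV A M) (jB_mem_gaussV A M) (cst M c)
      (fun y hy h2 => mem_modelFin_of_cst_mul A M hℓ hM hA y hy c hcA hc0 h2) hx h1)
    w hw hbdd e₀ he₀ he₀U einf heinf heinfU
  -- `c x ≠ 1`
  have h2 := (one_add_cst_mul_inv_mem_gaussV A M hℓ hM hA c hc (-x)
    ((gaussV A M).neg_mem hx)).1
  apply h2
  have h3 : cst M c * x = 1 := h1
  rw [mul_neg, h3]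
  ring

set_option synthInstance.maxHeartbeats 400000 in
/-- membership in `L(B₀) + L(B∞)`, unfolded. -/
theorem h69_mem_sup_iff {r : ℕ} (hr : 0 < r) (hr0 : r ≠ 0) (w g : FF M) :
    g ∈ h26L (h69B0 M A) w r hr (h69_root0 M A hr0) ⊔
        h26L (h69Binf M A) w r hr (h69_rootinf M A hr0) ↔
      ∃ a b : FF M, a ^ r * w⁻¹ ∈ modelFin M A ∧ b ^ r * w⁻¹ ∈ modelInf M A ∧ g = a + b := by
  rw [Submodule.mem_sup]
  constructor
  · rintro ⟨a, ha, b, hb, hab⟩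
    exact ⟨a, b, ha, hb, hab.symm⟩
  · rintro ⟨a, b, ha, hb, hab⟩
    exact ⟨a, ha, b, hb, hab.symm⟩

omit [NeZero M] in
set_option synthInstance.maxHeartbeats 400000 in
/-- the scalar action of `A` on `FF M`, unfolded. -/
theorem h69_smul_eq {c : Kbar} (hc : c ∈ A) (n : ℕ) (f : FF M) :
    ((⟨c, hc⟩ : ↥A) ^ n) • f = cst M c ^ n * f := by
  rw [Algebra.smul_def, map_pow]
  rfl

set_option synthInstance.maxHeartbeats 400000 in
set_option maxHeartbeats 1600000 in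
/-- **The abstract gate at the charts of the normal model** (conclusion of `h26_gate_core`);
the three geometric hypotheses are stated without instances. -/
theorem h69_gate_inst {ℓ : ℕ} (hℓ : ℓ.Prime) (hM : ¬ ℓ ∣ M) (hA : A.LiesOverPrime ℓ)
    {r : ℕ} (hr : r.Prime) (hrℓ : r ≠ ℓ)
    (c : Kbar) (hc0 : c ≠ 0) (hc : c ∈ A.nonunits)
    (w : FF M) (hw : ∃ v ∈ gaussV A M, w = 1 + cst M c * v)
    (hbdd : ∃ k : ℕ, ∀ f : FF M, f ^ r * w⁻¹ ∈ h85modelMid M A →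
      (∃ n : ℕ, ∃ a b : FF M, a ^ r * w⁻¹ ∈ modelFin M A ∧ b ^ r * w⁻¹ ∈ modelInf M A ∧
        cst M c ^ n * f = a + b) →
      ∃ a b : FF M, a ^ r * w⁻¹ ∈ modelFin M A ∧ b ^ r * w⁻¹ ∈ modelInf M A ∧
        cst M c ^ k * f = a + b)
    (e₀ : FF M) (he₀ : e₀ ^ r * w⁻¹ ∈ modelFin M A)
    (he₀U : ∃ v ∈ gaussV A M, e₀ = 1 + cst M c * v)
    (einf : FF M) (heinf : einf ^ r * w⁻¹ ∈ modelInf M A)
    (heinfU : ∃ v ∈ gaussV A M, einf = 1 + cst M c * v) :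
    ∃ t : FF M, t ≠ 0 ∧ t ^ r * w⁻¹ ∈ modelFin M A ∧ t ^ r * w⁻¹ ∈ modelInf M A := by
  have hcA : c ∈ A := Asm.mem_of_mem_nonunits A c hc
  refine h69_gate_core M A hℓ hM hA hr hrℓ c hc0 hc w hw ?_ e₀ he₀ he₀U einf heinf heinfU
  obtain ⟨k, hk⟩ := hbdd
  refine ⟨k, fun f hf hn => ?_⟩
  rw [h69_smul_eq M A hcA, h69_mem_sup_iff M A hr.pos hr.ne_zero]
  refine hk f hf ?_
  obtain ⟨n, hn⟩ := hn
  rw [h69_smul_eq M A hcA, h69_mem_sup_iff M A hr.pos hr.ne_zero] at hn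
  exact ⟨n, hn⟩

/-! ### The conclusion adapter -/

/-- if `t ^ r / w` lies in both charts (`t ≠ 0 ≠ w`) then `w` is an `r`-th power. -/
theorem h69_root_of_overlap {r : ℕ} (hr : 0 < r) (w t : FF M) (hw : w ≠ 0) (ht : t ≠ 0)
    (h₀ : t ^ r * w⁻¹ ∈ modelFin M A) (hinf : t ^ r * w⁻¹ ∈ modelInf M A) :
    ∃ h : FF M, h ^ r = w := by
  obtain ⟨a, -, ha⟩ := h85_modelFin_inf_modelInf M A h₀ hinf
  have hne : t ^ r * w⁻¹ ≠ 0 := mul_ne_zero (pow_ne_zero _ ht) (inv_ne_zero hw)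
  have ha0 : a ≠ 0 := by
    rintro rfl
    have h0 : cst M (0 : Kbar) = 0 := map_zero (algebraMap Kbar (FF M))
    rw [h0] at ha
    exact hne ha
  obtain ⟨b, hb⟩ := IsAlgClosed.exists_pow_nat_eq a hr
  have hb0 : b ≠ 0 := by
    rintro rfl
    rw [zero_pow hr.ne'] at hb
    exact ha0 hb.symm
  have hcb : cst M b ≠ 0 := (map_ne_zero _).2 hb0
  refine ⟨t * (cst M b)⁻¹, ?_⟩
  have h1 : cst M b ^ r = t ^ r * w⁻¹ := by
    have h2 : cst M b ^ r = cst M (b ^ r) := (map_pow (algebraMap Kbar (FF M)) b r).symm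
    rw [h2, hb, ha]
  rw [mul_pow, inv_pow, h1]
  field_simp

/-- **The gate at a good level from the three geometric inputs.**  `w ≡ 1 mod c V`, the
torsion bound `hbdd` and the local trivialisations `e₀`, `e∞` give an `r`-th root of `w`. -/
theorem h69_gate_of {ℓ : ℕ} (hℓ : ℓ.Prime) (hM : ¬ ℓ ∣ M) (hA : A.LiesOverPrime ℓ)
    {r : ℕ} (hr : r.Prime) (hrℓ : r ≠ ℓ)
    (c : Kbar) (hc0 : c ≠ 0) (hc : c ∈ A.nonunits)
    (w : FF M) (hw : ∃ v ∈ gaussV A M, w = 1 + cst M c * v)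
    (hbdd : ∃ k : ℕ, ∀ f : FF M, f ^ r * w⁻¹ ∈ h85modelMid M A →
      (∃ n : ℕ, ∃ a b : FF M, a ^ r * w⁻¹ ∈ modelFin M A ∧ b ^ r * w⁻¹ ∈ modelInf M A ∧
        cst M c ^ n * f = a + b) →
      ∃ a b : FF M, a ^ r * w⁻¹ ∈ modelFin M A ∧ b ^ r * w⁻¹ ∈ modelInf M A ∧
        cst M c ^ k * f = a + b)
    (e₀ : FF M) (he₀ : e₀ ^ r * w⁻¹ ∈ modelFin M A)
    (he₀U : ∃ v ∈ gaussV A M, e₀ = 1 + cst M c * v)
    (einf : FF M) (heinf : einf ^ r * w⁻¹ ∈ modelInf M A)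
    (heinfU : ∃ v ∈ gaussV A M, einf = 1 + cst M c * v) :
    ∃ h : FF M, h ^ r = w := by
  obtain ⟨t, ht, h₀, hinf⟩ := h69_gate_inst M A hℓ hM hA hr hrℓ c hc0 hc w hw hbdd e₀ he₀ he₀U
    einf heinf heinfU
  have hw0 : w ≠ 0 := by
    obtain ⟨v, hv, rfl⟩ := hw
    exact (one_add_cst_mul_inv_mem_gaussV A M hℓ hM hA c hc v hv).1
  exact h69_root_of_overlap M A hr.pos w t hw0 ht h₀ hinf

/-! ### The interface for the integration -/

/-- **The geometric data consumed by the gate** at `(M, A, r, w)`: a nonzero `c ∈ 𝔪_A` with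
`w ≡ 1 mod c V`, the bound on the `c`-power torsion of the Čech `H¹` of `L`, and local
trivialisations `e₀`, `e∞ ≡ 1 mod c V` on the two charts. -/
def H69GateData (r : ℕ) (w : FF M) : Prop :=
  ∃ c : Kbar, c ≠ 0 ∧ c ∈ A.nonunits ∧ (∃ v ∈ gaussV A M, w = 1 + cst M c * v) ∧
    (∃ k : ℕ, ∀ f : FF M, f ^ r * w⁻¹ ∈ h85modelMid M A →
      (∃ n : ℕ, ∃ a b : FF M, a ^ r * w⁻¹ ∈ modelFin M A ∧ b ^ r * w⁻¹ ∈ modelInf M A ∧
        cst M c ^ n * f = a + b) →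
      ∃ a b : FF M, a ^ r * w⁻¹ ∈ modelFin M A ∧ b ^ r * w⁻¹ ∈ modelInf M A ∧
        cst M c ^ k * f = a + b) ∧
    (∃ e₀ : FF M, e₀ ^ r * w⁻¹ ∈ modelFin M A ∧ ∃ v ∈ gaussV A M, e₀ = 1 + cst M c * v) ∧
    (∃ einf : FF M, einf ^ r * w⁻¹ ∈ modelInf M A ∧
      ∃ v ∈ gaussV A M, einf = 1 + cst M c * v)

/-- the gate from the geometric data. -/
theorem h69_root_of_gateData {ℓ : ℕ} (hℓ : ℓ.Prime) (hM : ¬ ℓ ∣ M) (hA : A.LiesOverPrime ℓ)
    {r : ℕ} (hr : r.Prime) (hrℓ : r ≠ ℓ) (w : FF M) (h : H69GateData M A r w) :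
    ∃ h : FF M, h ^ r = w := by
  obtain ⟨c, hc0, hc, hw, hbdd, ⟨e₀, he₀, he₀U⟩, ⟨einf, heinf, heinfU⟩⟩ := h
  exact h69_gate_of M A hℓ hM hA hr hrℓ c hc0 hc w hw hbdd e₀ he₀ he₀U einf heinf heinfU

/-- **`GateGood` from the geometric data.** -/
theorem h69_gateGood_of
    (h : ∀ ℓ : ℕ, ℓ.Prime → ∀ (M : ℕ) [NeZero M], ¬ ℓ ∣ M → auxLevel ℓ ∣ M →
      ∀ A : ValuationSubring Kbar, A.LiesOverPrime ℓ →
      ∀ r : ℕ, r.Prime → r ≠ ℓ → ∀ w : FF M, w ≠ 0 →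
        (∀ v : Place Kbar (FF M), (r : ℤ) ∣ v.ord w) → CongOne A w → H69GateData M A r w) :
    GateGood := by
  intro ℓ hℓ M _ hM haux A hA r hr hrℓ w hw0 hord hcong
  exact h69_root_of_gateData M A hℓ hM hA hr hrℓ w (h ℓ hℓ M hM haux A hA r hr hrℓ w hw0 hord hcong)

end Fermat.Agent.Red.ModelO
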