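import Fermat.Agent.Red.ModelO.RatDefs
import Fermat.Agent.Red.ModelO.ZlNoeth
import Fermat.Agent.Red.ModelO.FiniteNoeth
import Fermat.Agent.S18.FinModL
import Fermat.Agent.S18.AlgModL
import Fermat.Agent.S28.RBasic

/-!
# P-RED / R-MODEL: the charts over `ℤ_(ℓ)` are finitely generated modules over `ℤ_(ℓ)[j^{±1}]`

`h85_ratChart_fg` : for `t = j` or `t = 1/j`, the integral closure of `ℤ_(ℓ)[t]` in the rational
function field `FQ M` is generated over `ℤ_(ℓ)[t]` by finitely many of its elements.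
-/

set_option autoImplicit false
set_option linter.style.haveILetI false

open Polynomial ModularCurve IntermediateField

noncomputable section

namespace Fermat.Agent.Red.ModelO

open Fermat.Agent.S37

/-- the `ℚ`-algebra structure of `FQ M` as an intermediate field. -/
abbrev h85algQ (M : ℕ) : Algebra ℚ (↥(modularFunctionFieldFullC ℚ M)) :=
  SubalgebraClass.toAlgebra (modularFunctionFieldFullC ℚ M)

theorem h85_transcendental_jQ (M : ℕ) [NeZero M] :
    @Transcendental ℚ (↥(modularFunctionFieldFullC ℚ M)) _ _ (h85algQ M) (h85jQ M) := by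
  intro halg
  apply Fermat.Agent.S24.h52_transcendental_jq
  exact (IntermediateField.isAlgebraic_iff (S := modularFunctionFieldFull M)
      (x := h85jQ M)).mp halg

/-- the field `ℚ(j) ⊆ FQ M`. -/
abbrev h85Qj (M : ℕ) [NeZero M] :
    @IntermediateField ℚ (↥(modularFunctionFieldFullC ℚ M)) _ _ (h85algQ M) :=
  @IntermediateField.adjoin ℚ _ (↥(modularFunctionFieldFullC ℚ M)) _ (h85algQ M) {h85jQ M}

theorem h85_finiteDimensional_jQ (M : ℕ) [NeZero M] :
    FiniteDimensional (h85Qj M) (↥(modularFunctionFieldFullC ℚ M)) :=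
  Fermat.Agent.S18.finiteModL Fermat.Agent.S18.algebraicModL ℚ M (h85jQ M)
    (h85_transcendental_jQ M)

/-- `FQ M` is spanned over `ℚ(j)` by a finite set (intermediate-field form). -/
theorem h85_exists_span_QjC (M : ℕ) [NeZero M] :
    ∃ T : Finset (↥(modularFunctionFieldFullC ℚ M)), ∀ x : ↥(modularFunctionFieldFullC ℚ M),
      ∃ c : ↥(modularFunctionFieldFullC ℚ M) → ↥(modularFunctionFieldFullC ℚ M),
        (∀ u, c u ∈ ((h85Qj M : Set (↥(modularFunctionFieldFullC ℚ M))))) ∧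
          x = ∑ u ∈ T, c u * u := by
  classical
  have hfd := h85_finiteDimensional_jQ M
  obtain ⟨T, hT⟩ := (Module.finite_def.mp hfd)
  refine ⟨T, fun x => ?_⟩
  have hx : x ∈ Submodule.span (h85Qj M) (T : Set (↥(modularFunctionFieldFullC ℚ M))) := by
    rw [hT]; trivial
  obtain ⟨c, -, hc⟩ := (Submodule.mem_span_finset).mp hx
  refine ⟨fun u => ((c u : h85Qj M) : ↥(modularFunctionFieldFullC ℚ M)), fun u => (c u).2, ?_⟩
  rw [← hc]
  refine Finset.sum_congr rfl fun u _ => ?_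
  rw [Algebra.smul_def]
  rfl

/-- the field `ℚ(j) ⊆ FQ M`, as a set. -/
def h85QjSet (M : ℕ) [NeZero M] : Set (FQ M) :=
  ((h85Qj M : Set (↥(modularFunctionFieldFullC ℚ M))))

/-- `FQ M` is spanned over `ℚ(j)` by a finite set. -/
theorem h85_exists_span_Qj (M : ℕ) [NeZero M] :
    ∃ T : Finset (FQ M), ∀ x : FQ M, ∃ c : FQ M → FQ M,
      (∀ u, c u ∈ h85QjSet M) ∧ x = ∑ u ∈ T, c u * u :=
  h85_exists_span_QjC M

theorem h85evQ_X (ℓ M : ℕ) (t : FQ M) : h85evQ ℓ M t X = t := by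
  simp [h85evQ]

theorem h85_Qj_subsetC (M : ℕ) [NeZero M] (S : Subfield (↥(modularFunctionFieldFullC ℚ M)))
    (hj : h85jQ M ∈ S) :
    ((h85Qj M : Set (↥(modularFunctionFieldFullC ℚ M)))) ⊆ S := by
  have hmem : ∀ r : ℚ,
      @algebraMap ℚ (↥(modularFunctionFieldFullC ℚ M)) _ _ (h85algQ M) r ∈ S := by
    intro r
    have h1 : @algebraMap ℚ (↥(modularFunctionFieldFullC ℚ M)) _ _ (h85algQ M) r =
        ((r : ℚ) : ↥(modularFunctionFieldFullC ℚ M)) :=
      eq_ratCast (@algebraMap ℚ (↥(modularFunctionFieldFullC ℚ M)) _ _ (h85algQ M)) r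
    rw [h1]
    exact SubfieldClass.ratCast_mem S r
  have h : h85Qj M ≤
      @Subfield.toIntermediateField ℚ (↥(modularFunctionFieldFullC ℚ M)) _ _ (h85algQ M) S
        hmem := by
    refine (@IntermediateField.adjoin_le_iff ℚ _ (↥(modularFunctionFieldFullC ℚ M)) _
      (h85algQ M) _ _).mpr ?_
    intro x hx
    have hx' : x = h85jQ M := hx
    rw [hx']
    exact hj
  exact fun x hx => h hx

theorem h85_Qj_subset (ℓ M : ℕ) [NeZero M] (t : FQ M)
    (ht : t = h85jQ M ∨ t = (h85jQ M)⁻¹) :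
    h85QjSet M ⊆ Subfield.closure (Set.range (h85evQ ℓ M t)) := by
  have hj : h85jQ M ∈ Subfield.closure (Set.range (h85evQ ℓ M t)) := by
    rcases ht with rfl | rfl
    · exact Subfield.subset_closure ⟨X, h85evQ_X ℓ M _⟩
    · have h1 : (h85jQ M)⁻¹ ∈ Subfield.closure (Set.range (h85evQ ℓ M (h85jQ M)⁻¹)) :=
        Subfield.subset_closure ⟨X, h85evQ_X ℓ M _⟩
      have h2 := inv_mem h1
      rwa [inv_inv] at h2
  exact h85_Qj_subsetC M (Subfield.closure (Set.range (h85evQ ℓ M t))) hj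

theorem h85_val_evQ (ℓ M : ℕ) (t : FQ M) (P : Polynomial (GaloisRep.ratLocalizedAt ℓ)) :
    ((h85evQ ℓ M t P : FQ M) : LaurentSeries ℚ) =
      aeval (t : LaurentSeries ℚ) (P.map (algebraMap (GaloisRep.ratLocalizedAt ℓ) ℚ)) := by
  have h1 : ((h85evQ ℓ M t P : FQ M) : LaurentSeries ℚ) =
      eval₂ ((algebraMap (FQ M) (LaurentSeries ℚ)).comp (h85zlHom ℓ M))
        (t : LaurentSeries ℚ) P := by
    show algebraMap (FQ M) (LaurentSeries ℚ) (eval₂ (h85zlHom ℓ M) t P) = _
    rw [hom_eval₂]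
    rfl
  have h2 : (algebraMap (FQ M) (LaurentSeries ℚ)).comp (h85zlHom ℓ M) =
      (algebraMap ℚ (LaurentSeries ℚ)).comp (algebraMap (GaloisRep.ratLocalizedAt ℓ) ℚ) := by
    have h3 : (algebraMap (FQ M) (LaurentSeries ℚ)).comp (algebraMap ℚ (FQ M)) =
        algebraMap ℚ (LaurentSeries ℚ) := Subsingleton.elim _ _
    rw [← h3]
    rfl
  rw [h1, h2, aeval_def, eval₂_map]

theorem h85evQ_injective (ℓ M : ℕ) [NeZero M] (t : FQ M)
    (ht : t = h85jQ M ∨ t = (h85jQ M)⁻¹) : Function.Injective (h85evQ ℓ M t) := by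
  have htr : Transcendental ℚ (t : LaurentSeries ℚ) := by
    rcases ht with rfl | rfl
    · exact Fermat.Agent.S24.h52_transcendental_jq
    · intro halg
      have h2 := halg.inv
      have h3 : (((h85jQ M)⁻¹ : FQ M) : LaurentSeries ℚ)⁻¹ = jq := by
        show ((jq : LaurentSeries ℚ)⁻¹)⁻¹ = jq
        rw [inv_inv]
      rw [h3] at h2
      exact Fermat.Agent.S24.h52_transcendental_jq h2
  rw [injective_iff_map_eq_zero]
  intro P hP
  have h1 := h85_val_evQ ℓ M t P
  rw [hP] at h1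
  have h2 : P.map (algebraMap (GaloisRep.ratLocalizedAt ℓ) ℚ) = 0 :=
    (transcendental_iff_injective.mp htr) (h1.symm.trans (map_zero _).symm)
  exact Polynomial.map_injective _ (FaithfulSMul.algebraMap_injective _ ℚ)
    (h2.trans (Polynomial.map_zero _).symm)

/-- **The charts over `ℤ_(ℓ)` are finitely generated.** -/
theorem h85_ratChart_fg (ℓ M : ℕ) [NeZero M] [Fact ℓ.Prime] (t : FQ M)
    (ht : t = h85jQ M ∨ t = (h85jQ M)⁻¹) :
    ∃ S : Finset (FQ M), (∀ s ∈ S, (h85evQ ℓ M t).IsIntegralElem s) ∧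
      ∀ y : FQ M, (h85evQ ℓ M t).IsIntegralElem y →
        ∃ c : FQ M → Polynomial (GaloisRep.ratLocalizedAt ℓ),
          y = ∑ s ∈ S, h85evQ ℓ M t (c s) * s := by
  haveI := Fermat.Agent.S28.isIntegrallyClosed_ratLocalizedAt ℓ
  haveI := h85_isNoetherianRing_ratLocalizedAt ℓ
  haveI : CharZero (FQ M) := charZero_of_injective_algebraMap (algebraMap ℚ (FQ M)).injective
  obtain ⟨T, hT⟩ := h85_exists_span_Qj M
  exact h85_exists_finset_gen_of_noetherian (h85zlHom ℓ M) t (h85evQ_injective ℓ M t ht)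
    (h85QjSet M) (h85_Qj_subset ℓ M t ht) T hT

end Fermat.Agent.Red.ModelO
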